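import Mathlib

/-!
# S32 (W12), slice (S32-3): closure of Hopf orders at function level

Frame: `R` a principal ideal domain with fraction field `F`, `K ⊇ F` a field on which a family
`κ : Γ → K →+* K` of ring endomorphisms acts with fixed field `F`.  For a finite abelian group `T`
with an action `act : Γ → T → T`, a *Hopf order* is an `R`-subalgebra `H ⊆ (T → K)` which is
module-finite, consists of equivariant functions, separates the points of `T`, and is stable under
the comultiplication `φ ↦ ((s,t) ↦ φ (s + t))`.  Stability under the antipode `φ ↦ φ ∘ neg` is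
automatic for finite `T` (`IsHopfOrder.neg_mem`).

This file proves that Hopf orders are stable under
* pullback along an injective additive equivariant map (`IsHopfOrder.map_pullback`):
  subgroups and transport along isomorphisms;
* finite powers (`IsHopfOrder.pi`);
* quotients by surjective additive equivariant maps (`IsHopfOrder.comap_pullback`).
-/

set_option autoImplicit false

namespace Fermat.Agent.S32.HopfClosure

open scoped BigOperators

section Pullback

variable (R : Type*) {K : Type*} [CommSemiring R] [CommSemiring K] [Algebra R K]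

/-- Pullback of `K`-valued functions along `g : X → Y`, as an `R`-algebra hom. -/
def pullback {X Y : Type*} (g : X → Y) : (Y → K) →ₐ[R] (X → K) where
  toFun φ := fun x => φ (g x)
  map_one' := rfl
  map_mul' _ _ := rfl
  map_zero' := rfl
  map_add' _ _ := rfl
  commutes' _ := rfl

@[simp] theorem pullback_apply {X Y : Type*} (g : X → Y) (φ : Y → K) (x : X) :
    pullback R g φ x = φ (g x) := rfl

theorem pullback_injective {X Y : Type*} {g : X → Y} (hg : Function.Surjective g) :
    Function.Injective (pullback (K := K) R g) := by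
  intro φ ψ h
  funext y
  obtain ⟨x, rfl⟩ := hg y
  exact congrFun h x

end Pullback

section Decomp

variable {R K : Type*} [CommRing R] [CommRing K] [Algebra R K]
variable {S T : Type*}

/-- `Φ : S → T → K` is a finite sum of products `a s * b t` with `a ∈ A`, `b ∈ B`. -/
def IsDecomp (A : Submodule R (S → K)) (B : Submodule R (T → K)) (Φ : S → T → K) : Prop :=
  ∃ (ι : Type) (_ : Fintype ι) (a : ι → S → K) (b : ι → T → K),
    (∀ i, a i ∈ A) ∧ (∀ i, b i ∈ B) ∧ ∀ s t, Φ s t = ∑ i, a i s * b i t

namespace IsDecomp

variable {A A' : Submodule R (S → K)} {B B' : Submodule R (T → K)} {Φ Ψ : S → T → K}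

theorem mono (hA : A ≤ A') (hB : B ≤ B') (h : IsDecomp A B Φ) : IsDecomp A' B' Φ := by
  obtain ⟨ι, _, a, b, ha, hb, h⟩ := h
  exact ⟨ι, inferInstance, a, b, fun i => hA (ha i), fun i => hB (hb i), h⟩

theorem pure {a : S → K} {b : T → K} (ha : a ∈ A) (hb : b ∈ B) :
    IsDecomp A B (fun s t => a s * b t) :=
  ⟨Unit, inferInstance, fun _ => a, fun _ => b, fun _ => ha, fun _ => hb, fun s t => by simp⟩

theorem zero : IsDecomp A B (fun _ _ => (0 : K)) :=
  ⟨Empty, inferInstance, fun _ => 0, fun _ => 0, fun i => i.elim, fun i => i.elim,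
    fun s t => by simp⟩

theorem add (h : IsDecomp A B Φ) (h' : IsDecomp A B Ψ) :
    IsDecomp A B (fun s t => Φ s t + Ψ s t) := by
  obtain ⟨ι, _, a, b, ha, hb, h⟩ := h
  obtain ⟨ι', _, a', b', ha', hb', h'⟩ := h'
  refine ⟨ι ⊕ ι', inferInstance, Sum.elim a a', Sum.elim b b', ?_, ?_, fun s t => ?_⟩
  · rintro (i | i)
    · exact ha i
    · exact ha' i
  · rintro (i | i)
    · exact hb i
    · exact hb' i
  · change Φ s t + Ψ s t = _
    rw [Fintype.sum_sum_type, h, h']
    rfl

theorem smul (r : R) (h : IsDecomp A B Φ) : IsDecomp A B (fun s t => r • Φ s t) := by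
  obtain ⟨ι, _, a, b, ha, hb, h⟩ := h
  refine ⟨ι, inferInstance, fun i => r • a i, b, fun i => A.smul_mem r (ha i), hb, fun s t => ?_⟩
  change r • Φ s t = _
  rw [h, Finset.smul_sum]
  refine Finset.sum_congr rfl fun i _ => ?_
  simp

theorem sum {J : Type*} (u : Finset J) {Φ : J → S → T → K} (h : ∀ j ∈ u, IsDecomp A B (Φ j)) :
    IsDecomp A B (fun s t => ∑ j ∈ u, Φ j s t) := by
  classical
  induction u using Finset.induction_on with
  | empty => simpa using (zero : IsDecomp A B _)
  | insert j u hj ih =>
    have h1 := h j (Finset.mem_insert_self j u)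
    have h2 := ih fun j' hj' => h j' (Finset.mem_insert_of_mem hj')
    have := h1.add h2
    refine cast ?_ this
    congr 1
    funext s t
    rw [Finset.sum_insert hj]

theorem flip (h : IsDecomp A B Φ) : IsDecomp B A (fun t s => Φ s t) := by
  obtain ⟨ι, _, a, b, ha, hb, h⟩ := h
  exact ⟨ι, inferInstance, b, a, hb, ha, fun t s => by
    change Φ s t = _
    rw [h]; exact Finset.sum_congr rfl fun i _ => mul_comm _ _⟩

theorem congr (h : IsDecomp A B Φ) (hΨ : ∀ s t, Ψ s t = Φ s t) : IsDecomp A B Ψ := by
  have : Ψ = Φ := by funext s t; exact hΨ s t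
  rwa [this]

/-- Conversion to the `Fin n`-indexed form with subtype-valued families. -/
theorem exists_fin (h : IsDecomp A B Φ) :
    ∃ (n : ℕ) (a : Fin n → A) (b : Fin n → B),
      ∀ s t, Φ s t = ∑ i, (a i : S → K) s * (b i : T → K) t := by
  obtain ⟨ι, _, a, b, ha, hb, h⟩ := h
  let e := Fintype.equivFin ι
  refine ⟨Fintype.card ι, fun i => ⟨a (e.symm i), ha _⟩, fun i => ⟨b (e.symm i), hb _⟩,
    fun s t => ?_⟩
  rw [h]
  exact (Equiv.sum_comp e.symm fun i => a i s * b i t).symm

theorem of_fin {n : ℕ} (a : Fin n → A) (b : Fin n → B)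
    (h : ∀ s t, Φ s t = ∑ i, (a i : S → K) s * (b i : T → K) t) : IsDecomp A B Φ :=
  ⟨Fin n, inferInstance, fun i => a i, fun i => b i, fun i => (a i).2, fun i => (b i).2, h⟩

/-- Expansion of the second factors in a finite spanning family of `B`. -/
theorem expand {J : Type*} [Fintype J] (h : J → T → K)
    (hB : ∀ b ∈ B, ∃ r : J → R, b = ∑ j, r j • h j) (hΦ : IsDecomp A B Φ) :
    ∃ g : J → S → K, (∀ j, g j ∈ A) ∧ ∀ s t, Φ s t = ∑ j, g j s * h j t := by
  obtain ⟨ι, _, a, b, ha, hb, hΦ⟩ := hΦ
  choose r hr using fun i => hB (b i) (hb i)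
  refine ⟨fun j => ∑ i, r i j • a i, fun j => A.sum_mem fun i _ => A.smul_mem _ (ha i),
    fun s t => ?_⟩
  rw [hΦ]
  have : ∀ i, a i s * b i t = ∑ j, (r i j • a i s) * h j t := by
    intro i
    rw [hr i, Finset.sum_apply, Finset.mul_sum]
    refine Finset.sum_congr rfl fun j _ => ?_
    simp only [Pi.smul_apply, Algebra.smul_def]
    ring
  simp only [this, Finset.sum_apply, Pi.smul_apply]
  rw [Finset.sum_comm]
  refine Finset.sum_congr rfl fun j _ => ?_
  rw [Finset.sum_mul]

/-- Products: if `A`, `B` are closed under multiplication, so are decomposable functions. -/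
theorem mul (hA : ∀ a ∈ A, ∀ a' ∈ A, a * a' ∈ A) (hB : ∀ b ∈ B, ∀ b' ∈ B, b * b' ∈ B)
    (h : IsDecomp A B Φ) (h' : IsDecomp A B Ψ) :
    IsDecomp A B (fun s t => Φ s t * Ψ s t) := by
  obtain ⟨ι, _, a, b, ha, hb, h⟩ := h
  obtain ⟨ι', _, a', b', ha', hb', h'⟩ := h'
  refine ⟨ι × ι', inferInstance, fun p => a p.1 * a' p.2, fun p => b p.1 * b' p.2,
    fun p => hA _ (ha _) _ (ha' _), fun p => hB _ (hb _) _ (hb' _), fun s t => ?_⟩
  change Φ s t * Ψ s t = _
  rw [h, h', Finset.sum_mul_sum, Fintype.sum_prod_type]
  refine Finset.sum_congr rfl fun i _ => Finset.sum_congr rfl fun j _ => ?_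
  simp only [Pi.mul_apply]
  ring

/-- Pullback of a decomposition. -/
theorem comp {S' T' : Type*} (f : S' → S) (g : T' → T) (h : IsDecomp A B Φ) :
    IsDecomp (A.map (pullback R f).toLinearMap) (B.map (pullback R g).toLinearMap)
      (fun s t => Φ (f s) (g t)) := by
  obtain ⟨ι, _, a, b, ha, hb, h⟩ := h
  exact ⟨ι, inferInstance, fun i => pullback R f (a i), fun i => pullback R g (b i),
    fun i => Submodule.mem_map_of_mem (ha i), fun i => Submodule.mem_map_of_mem (hb i),
    fun s t => h _ _⟩

end IsDecomp

end Decomp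

section Descent

variable {F K Γ : Type*} [Field F] [Field K] [Algebra F K] (κ : Γ → K →+* K)

/-- Twisting a linear relation between equivariant functions by `σ`. -/
theorem twist_relation {X : Type*} {act : Γ → X → X} (hact : ∀ σ, Function.Surjective (act σ))
    {ι : Type*} {v : ι → X → K} (hequiv : ∀ i σ x, v i (act σ x) = κ σ (v i x))
    (s : Finset ι) (c : ι → K) (h0 : ∑ i ∈ s, c i • v i = 0) (σ : Γ) :
    ∑ i ∈ s, κ σ (c i) • v i = 0 := by
  funext y
  obtain ⟨x, rfl⟩ := hact σ y
  have h1 := congrArg (κ σ) (congrFun h0 x)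
  simp only [Finset.sum_apply, Pi.smul_apply, smul_eq_mul, Pi.zero_apply, map_sum, map_mul,
    map_zero] at h1 ⊢
  rw [← h1]
  exact Finset.sum_congr rfl fun i _ => by rw [hequiv]

/-- **Artin-type descent**: a family of `Γ`-equivariant functions `X → K` which is linearly
independent over the fixed field `F` of `Γ` is linearly independent over `K`. -/
theorem linearIndependent_of_equivariant
    (hfix : ∀ x : K, (∀ σ, κ σ x = x) → x ∈ Set.range (algebraMap F K))
    {X : Type*} {act : Γ → X → X} (hact : ∀ σ, Function.Surjective (act σ))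
    {ι : Type*} {v : ι → X → K} (hv : LinearIndependent F v)
    (hequiv : ∀ i σ x, v i (act σ x) = κ σ (v i x)) :
    LinearIndependent K v := by
  classical
  rw [linearIndependent_iff']
  intro s
  induction s using Finset.induction_on with
  | empty => intro c _ i hi; simp at hi
  | insert a s ha ih =>
    intro c h0
    by_cases hca : c a = 0
    · have h0' : ∑ i ∈ s, c i • v i = 0 := by
        rwa [Finset.sum_insert ha, hca, zero_smul, zero_add] at h0
      intro i hi
      rcases Finset.mem_insert.1 hi with rfl | hi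
      · exact hca
      · exact ih c h0' i hi
    · exfalso
      -- normalise the coefficient of `a` to `1`
      set c' : ι → K := fun i => (c a)⁻¹ * c i with hc'
      have h1 : ∑ i ∈ insert a s, c' i • v i = 0 := by
        have : ∑ i ∈ insert a s, c' i • v i = (c a)⁻¹ • ∑ i ∈ insert a s, c i • v i := by
          rw [Finset.smul_sum]
          exact Finset.sum_congr rfl fun i _ => by rw [hc', mul_smul]
        rw [this, h0, smul_zero]
      have hc'a : c' a = 1 := by simp [hc', hca]
      -- all the normalised coefficients are fixed by `Γ`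
      have hfixed : ∀ i ∈ insert a s, ∀ σ, κ σ (c' i) = c' i := by
        intro i hi σ
        have h2 := twist_relation κ hact hequiv (insert a s) c' h1 σ
        have h3 : ∑ i ∈ s, (κ σ (c' i) - c' i) • v i = 0 := by
          have : ∑ i ∈ insert a s, (κ σ (c' i) - c' i) • v i = 0 := by
            simp only [sub_smul, Finset.sum_sub_distrib, h1, h2, sub_zero]
          rwa [Finset.sum_insert ha, hc'a, map_one, sub_self, zero_smul, zero_add] at this
        rcases Finset.mem_insert.1 hi with rfl | hi
        · rw [hc'a, map_one]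
        · exact sub_eq_zero.1 (ih _ h3 i hi)
      -- hence they come from `F`
      have hF : ∀ i, ∃ d : F, i ∈ insert a s → algebraMap F K d = c' i := by
        intro i
        by_cases hi : i ∈ insert a s
        · obtain ⟨d, hd⟩ := hfix (c' i) (hfixed i hi)
          exact ⟨d, fun _ => hd⟩
        · exact ⟨0, fun h => absurd h hi⟩
      choose d hd using hF
      have h4 : ∑ i ∈ insert a s, d i • v i = 0 := by
        rw [← h1]
        refine Finset.sum_congr rfl fun i hi => ?_
        rw [← hd i hi, algebraMap_smul]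
      have := linearIndependent_iff'.1 hv (insert a s) d h4 a (Finset.mem_insert_self a s)
      have h5 := hd a (Finset.mem_insert_self a s)
      rw [this, map_zero, hc'a] at h5
      exact zero_ne_one h5

/-- Coefficient comparison against a `K`-independent family: if
`Φ s t = ∑ j, g j s * h j t` with `(h j)` linearly independent over `K`, and `Φ s = Φ s'`,
then `g j s = g j s'` for all `j`. -/
theorem coeff_eq_of_linearIndependent {S T J : Type*} [Fintype J] {h : J → T → K}
    (hh : LinearIndependent K h) {g : J → S → K} {Φ : S → T → K}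
    (hΦ : ∀ s t, Φ s t = ∑ j, g j s * h j t) {s s' : S} (hs : ∀ t, Φ s t = Φ s' t) (j : J) :
    g j s = g j s' := by
  have h0 : ∑ j, (g j s - g j s') • h j = 0 := by
    funext t
    have := hs t
    rw [hΦ, hΦ] at this
    simp only [Finset.sum_apply, Pi.smul_apply, smul_eq_mul, sub_mul, Finset.sum_sub_distrib,
      Pi.zero_apply, this, sub_self]
  exact sub_eq_zero.1 (Fintype.linearIndependent_iff.1 hh _ h0 j)

end Descent

section Order

variable {R K Γ : Type*} [CommRing R] [Field K] [Algebra R K] (κ : Γ → K →+* K)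

/-- Function-level Hopf orders: an `R`-subalgebra `H` of `T → K` which is module-finite,
consists of `Γ`-equivariant functions, separates points, and is stable under the comultiplication
of the constant group scheme `T`. -/
structure IsHopfOrder {T : Type*} [AddCommGroup T] (act : Γ → T → T)
    (H : Subalgebra R (T → K)) : Prop where
  fg : Module.Finite R H
  equiv : ∀ φ ∈ H, ∀ σ t, φ (act σ t) = κ σ (φ t)
  sep : ∀ s t : T, s ≠ t → ∃ φ ∈ H, φ s ≠ φ t
  comul : ∀ φ ∈ H, IsDecomp (Subalgebra.toSubmodule H) (Subalgebra.toSubmodule H)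
    (fun s t => φ (s + t))

theorem fg_toSubmodule_iff {X : Type*} (H : Subalgebra R (X → K)) :
    (Subalgebra.toSubmodule H).FG ↔ Module.Finite R H :=
  (Module.Finite.iff_fg (N := Subalgebra.toSubmodule H)).symm

variable {κ}

/-- Pullback along an injective additive equivariant map (subgroups, transport along
isomorphisms). -/
theorem IsHopfOrder.map_pullback {T T' : Type*} [AddCommGroup T] [AddCommGroup T']
    {act : Γ → T → T} {act' : Γ → T' → T'} {H : Subalgebra R (T → K)}
    (hH : IsHopfOrder κ act H) (g : T' →+ T) (hg : Function.Injective g)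
    (hgact : ∀ σ t', g (act' σ t') = act σ (g t')) :
    IsHopfOrder κ act' (H.map (pullback R g)) where
  fg := by
    rw [← fg_toSubmodule_iff, Subalgebra.map_toSubmodule]
    exact ((fg_toSubmodule_iff H).2 hH.fg).map _
  equiv := by
    rintro _ ⟨φ, hφ, rfl⟩ σ t
    simp only [AlgHom.coe_toRingHom, pullback_apply, hgact]
    exact hH.equiv φ hφ σ (g t)
  sep := by
    intro s t hst
    obtain ⟨φ, hφ, h⟩ := hH.sep (g s) (g t) (fun h => hst (hg h))
    exact ⟨pullback R g φ, ⟨φ, hφ, rfl⟩, h⟩
  comul := by
    rintro _ ⟨φ, hφ, rfl⟩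
    have := (hH.comul φ hφ).comp g g
    rw [← Subalgebra.map_toSubmodule] at this
    refine this.congr fun s t => ?_
    simp

/-- Stability under the multiplication-by-`m` maps, `m ≥ 1`. -/
theorem IsHopfOrder.comp_nsmul_mem {T : Type*} [AddCommGroup T] {act : Γ → T → T}
    {H : Subalgebra R (T → K)} (hH : IsHopfOrder κ act H) (m : ℕ) :
    ∀ φ ∈ H, (fun t => φ ((m + 1) • t)) ∈ H := by
  induction m with
  | zero =>
    intro φ hφ
    simpa using hφ
  | succ m ih =>
    intro φ hφ
    obtain ⟨ι, _, a, b, ha, hb, hab⟩ := hH.comul φ hφ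
    have : (fun t => φ ((m + 1 + 1) • t)) = ∑ i, a i * (fun t => b i ((m + 1) • t)) := by
      funext t
      rw [succ_nsmul' t (m + 1)]
      have := hab t ((m + 1) • t)
      simp only at this
      rw [this, Finset.sum_apply]
      rfl
    rw [this]
    exact H.sum_mem fun i _ => H.mul_mem (ha i) (ih _ (hb i))

/-- Stability under the antipode is automatic for finite groups. -/
theorem IsHopfOrder.neg_mem {T : Type*} [AddCommGroup T] [Finite T] {act : Γ → T → T}
    {H : Subalgebra R (T → K)} (hH : IsHopfOrder κ act H) :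
    ∀ φ ∈ H, (fun t => φ (-t)) ∈ H := by
  intro φ hφ
  have hcard : 0 < Nat.card T := Nat.card_pos
  obtain ⟨n, hn⟩ : ∃ n, Nat.card T = n + 1 := ⟨Nat.card T - 1, by omega⟩
  rcases Nat.eq_zero_or_pos n with rfl | hpos
  · have hsub : Subsingleton T := (Nat.card_eq_one_iff_unique.1 (by simpa using hn)).1
    have : (fun t => φ (-t)) = φ := by
      funext t
      rw [Subsingleton.elim (-t) t]
    rwa [this]
  · obtain ⟨m, rfl⟩ : ∃ m, n = m + 1 := ⟨n - 1, by omega⟩
    have : (fun t => φ (-t)) = fun t => φ ((m + 1) • t) := by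
      funext t
      congr 1
      have h0 : Nat.card T • t = 0 := card_nsmul_eq_zero'
      rw [hn, succ_nsmul] at h0
      exact (eq_neg_of_add_eq_zero_left h0).symm
    rw [this]
    exact hH.comp_nsmul_mem m φ hφ

end Order

section Pi

variable {R K Γ : Type*} [CommRing R] [Field K] [Algebra R K] {κ : Γ → K →+* K}

/-- A finite supremum of module-finite subalgebras is module-finite. -/
theorem finite_finsetSup {A : Type*} [CommRing A] [Algebra R A] {ι : Type*} (s : Finset ι)
    (B : ι → Subalgebra R A) (h : ∀ i ∈ s, Module.Finite R (B i)) :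
    Module.Finite R ↥(s.sup B) := by
  classical
  induction s using Finset.induction_on with
  | empty =>
    rw [Finset.sup_empty]
    exact Subalgebra.finite_bot
  | insert a s _ ih =>
    rw [Finset.sup_insert]
    have := h a (Finset.mem_insert_self a s)
    have := ih fun i hi => h i (Finset.mem_insert_of_mem hi)
    exact Subalgebra.finite_sup _ _

/-- The subalgebra of `Γ`-equivariant functions. -/
def equivariantSubalgebra (hκ : ∀ σ (r : R), κ σ (algebraMap R K r) = algebraMap R K r)
    {X : Type*} (act : Γ → X → X) : Subalgebra R (X → K) where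
  carrier := {f | ∀ σ x, f (act σ x) = κ σ (f x)}
  mul_mem' := by
    intro f g hf hg σ x
    simp only [Pi.mul_apply, map_mul, hf σ x, hg σ x]
  add_mem' := by
    intro f g hf hg σ x
    simp only [Pi.add_apply, map_add, hf σ x, hg σ x]
  algebraMap_mem' := by
    intro r σ x
    simp only [Pi.algebraMap_apply, hκ]

/-- For a subalgebra `H'` of functions on an additive group, the functions whose comultiplication
decomposes in `H' ⊗ H'` form a subalgebra. -/
def comulSubalgebra {X : Type*} [Add X] (H' : Subalgebra R (X → K)) : Subalgebra R (X → K) where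
  carrier := {f | IsDecomp (Subalgebra.toSubmodule H') (Subalgebra.toSubmodule H')
    (fun s t => f (s + t))}
  mul_mem' := by
    intro f g hf hg
    exact IsDecomp.mul (fun a ha a' ha' => H'.mul_mem ha ha')
      (fun a ha a' ha' => H'.mul_mem ha ha') hf hg
  add_mem' := by
    intro f g hf hg
    exact IsDecomp.add hf hg
  algebraMap_mem' := by
    intro r
    have := IsDecomp.pure (A := Subalgebra.toSubmodule H') (B := Subalgebra.toSubmodule H')
      (H'.algebraMap_mem r) H'.one_mem
    exact this.congr fun s t => by simp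

/-- The power order on `ι → T`: generated by the functions `x ↦ φ (x i)`, `φ ∈ H`. -/
def piOrder (ι : Type*) {T : Type*} (H : Subalgebra R (T → K)) : Subalgebra R ((ι → T) → K) :=
  ⨆ i : ι, H.map (pullback R (fun x : ι → T => x i))

theorem map_le_piOrder {ι T : Type*} (H : Subalgebra R (T → K)) (i : ι) :
    H.map (pullback R (fun x : ι → T => x i)) ≤ piOrder ι H :=
  le_iSup (fun i : ι => H.map (pullback R (fun x : ι → T => x i))) i

/-- Finite powers of Hopf orders. -/
theorem IsHopfOrder.pi (hκ : ∀ σ (r : R), κ σ (algebraMap R K r) = algebraMap R K r)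
    {ι : Type*} [Finite ι] {T : Type*} [AddCommGroup T]
    {act : Γ → T → T} {H : Subalgebra R (T → K)} (hH : IsHopfOrder κ act H) :
    IsHopfOrder κ (fun σ (x : ι → T) i => act σ (x i)) (piOrder ι H) where
  fg := by
    classical
    cases nonempty_fintype ι
    have : piOrder ι H = Finset.univ.sup
        (fun i : ι => H.map (pullback R (fun x : ι → T => x i))) := by
      rw [Finset.sup_univ_eq_iSup]; rfl
    rw [this]
    refine finite_finsetSup _ _ fun i _ => ?_
    rw [← fg_toSubmodule_iff, Subalgebra.map_toSubmodule]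
    exact ((fg_toSubmodule_iff H).2 hH.fg).map _
  equiv := by
    have : piOrder ι H ≤ equivariantSubalgebra hκ (fun σ (x : ι → T) i => act σ (x i)) := by
      refine iSup_le fun i => ?_
      rintro _ ⟨φ, hφ, rfl⟩ σ x
      exact hH.equiv φ hφ σ (x i)
    exact fun φ hφ => this hφ
  sep := by
    intro x y hxy
    obtain ⟨i, hi⟩ := Function.ne_iff.1 hxy
    obtain ⟨φ, hφ, h⟩ := hH.sep _ _ hi
    exact ⟨_, map_le_piOrder H i ⟨φ, hφ, rfl⟩, h⟩
  comul := by
    have : piOrder ι H ≤ comulSubalgebra (piOrder ι H) := by
      refine iSup_le fun i => ?_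
      rintro _ ⟨φ, hφ, rfl⟩
      have h1 := (hH.comul φ hφ).comp (fun x : ι → T => x i) (fun x : ι → T => x i)
      rw [← Subalgebra.map_toSubmodule] at h1
      exact (h1.mono (map_le_piOrder H i) (map_le_piOrder H i)).congr fun s t => by simp
    exact fun φ hφ => this hφ

end Pi

section StoneWeierstrass

variable {R K : Type*} [CommRing R] [Field K] [Algebra R K]

/-- Finite Stone–Weierstrass: the `K`-span of a point-separating `R`-subalgebra of functions on a
finite set contains the indicator functions of points. -/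
theorem single_mem_span {T : Type*} [Fintype T] [DecidableEq T] (H : Subalgebra R (T → K))
    (hsep : ∀ s t : T, s ≠ t → ∃ φ ∈ H, φ s ≠ φ t) (t : T) :
    (Pi.single t (1 : K) : T → K) ∈ Submodule.span K (H : Set (T → K)) := by
  have hspan : Subalgebra.toSubmodule (Algebra.adjoin K (H : Set (T → K)))
      = Submodule.span K (H : Set (T → K)) := by
    rw [Algebra.adjoin_eq_span]
    congr 1
    exact congrArg _ (Submonoid.closure_eq H.toSubmonoid)
  rw [← hspan, Subalgebra.mem_toSubmodule]
  have he : ∀ s : T, s ≠ t → ∃ e ∈ Algebra.adjoin K (H : Set (T → K)), e t = 1 ∧ e s = 0 := by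
    intro s hs
    obtain ⟨φ, hφ, hne⟩ := hsep s t hs
    refine ⟨(φ t - φ s)⁻¹ • (φ - algebraMap K (T → K) (φ s)), ?_, ?_, ?_⟩
    · exact Subalgebra.smul_mem _ (Subalgebra.sub_mem _ (Algebra.subset_adjoin hφ)
        (Subalgebra.algebraMap_mem _ _)) _
    · have : φ t - φ s ≠ 0 := sub_ne_zero.2 (Ne.symm hne)
      simp [this]
    · simp
  choose! e heA het hes using he
  have : (Pi.single t (1 : K) : T → K) = ∏ s ∈ Finset.univ.erase t, e s := by
    funext x
    rw [Finset.prod_apply, Pi.single_apply]
    split_ifs with hx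
    · subst hx
      exact (Finset.prod_eq_one fun s hs => het s (Finset.ne_of_mem_erase hs)).symm
    · exact (Finset.prod_eq_zero (f := fun c => e c x)
        (Finset.mem_erase.2 ⟨hx, Finset.mem_univ x⟩) (hes x hx)).symm
  rw [this]
  exact Subalgebra.prod_mem _ fun s hs => heA s (Finset.ne_of_mem_erase hs)

end StoneWeierstrass

section BasisFamily

variable {R K : Type*} [CommRing R] [IsDomain R] [IsPrincipalIdealRing R]
  [Field K] [Algebra R K] [FaithfulSMul R K]

/-- A basis of a finitely generated module of functions, as a family of functions. -/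
theorem exists_basis_family {X : Type*} (B : Submodule R (X → K)) (hB : B.FG) :
    ∃ (n : ℕ) (h : Fin n → X → K), LinearIndependent R h ∧ (∀ j, h j ∈ B) ∧
      ∀ b ∈ B, ∃ r : Fin n → R, b = ∑ j, r j • h j := by
  have : Module.Finite R B := Module.Finite.iff_fg.2 hB
  obtain ⟨n, bas⟩ := Module.basisOfFiniteTypeTorsionFree' (R := R) (M := B)
  refine ⟨n, fun j => (bas j : X → K), ?_, fun j => (bas j).2, fun b hb => ?_⟩
  · exact bas.linearIndependent.map' B.subtype (Submodule.ker_subtype B)
  · refine ⟨fun j => bas.repr ⟨b, hb⟩ j, ?_⟩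
    have := congrArg B.subtype (bas.sum_repr ⟨b, hb⟩)
    rw [map_sum] at this
    simp only [map_smul, Submodule.subtype_apply] at this
    exact this.symm

end BasisFamily

section Quotient

variable {R F K Γ : Type*} [CommRing R]
  [Field F] [Field K] [Algebra R F] [IsFractionRing R F] [Algebra F K] [Algebra R K]
  [IsScalarTower R F K] {κ : Γ → K →+* K}

/-- Sum of a function over the fibres of `q`. -/
def fibreSum {T T'' : Type*} [Fintype T] [DecidableEq T''] (q : T → T'') (h : T → K) : T'' → K :=
  fun x => ∑ u ∈ Finset.univ.filter (fun u => q u = x), h u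

theorem fibreSum_single {T T'' : Type*} [Fintype T] [DecidableEq T] [DecidableEq T'']
    (q : T → T'') (s : T) (x : T'') :
    fibreSum q (Pi.single s (1 : K)) x = if q s = x then 1 else 0 := by
  unfold fibreSum
  simp only [Pi.single_apply, Finset.sum_ite_eq', Finset.mem_filter, Finset.mem_univ, true_and]

/-- Descent for `R`-independent families of equivariant functions. -/
theorem linearIndependent_of_equivariant_of_isFractionRing
    (hfix : ∀ x : K, (∀ σ, κ σ x = x) → x ∈ Set.range (algebraMap F K))
    {X : Type*} {act : Γ → X → X} (hact : ∀ σ, Function.Surjective (act σ))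
    {ι : Type*} {v : ι → X → K} (hv : LinearIndependent R v)
    (hequiv : ∀ i σ x, v i (act σ x) = κ σ (v i x)) :
    LinearIndependent K v :=
  linearIndependent_of_equivariant κ hfix hact
    ((LinearIndependent.iff_fractionRing R F).1 hv) hequiv

variable [IsDomain R] {T T'' : Type*} [AddCommGroup T] [AddCommGroup T'']

/-- The trace over the fibres of `q` maps `H` into `F ⊗ H`. -/
theorem exists_smul_fibreSum_mem [Fintype T] [DecidableEq T'']
    (hfix : ∀ x : K, (∀ σ, κ σ x = x) → x ∈ Set.range (algebraMap F K))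
    {act : Γ → T → T} {H : Subalgebra R (T → K)} (hH : IsHopfOrder κ act H)
    (q : T →+ T'') (hbij : ∀ σ, Function.Bijective (act σ))
    (hN : ∀ σ n, q n = 0 ↔ q (act σ n) = 0) {h : T → K} (hh : h ∈ H) :
    ∃ a : R, a ≠ 0 ∧ a • pullback R q (fibreSum q h) ∈ H := by
  classical
  obtain ⟨ι, _, a, b, ha, hb, hab⟩ := hH.comul h hh
  set N : Finset T := Finset.univ.filter (fun n => q n = 0) with hNdef
  set β : ι → K := fun i => ∑ n ∈ N, b i n with hβ
  have key : ∀ t, fibreSum q h (q t) = ∑ i, β i * a i t := by
    intro t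
    have h1 : fibreSum q h (q t) = ∑ n ∈ N, h (t + n) := by
      unfold fibreSum
      symm
      refine Finset.sum_bijective (fun n => t + n) (AddGroup.addLeft_bijective t) ?_ ?_
      · intro n
        simp [hNdef]
      · intro n _; rfl
    rw [h1]
    simp only [hab, hβ, Finset.sum_mul]
    rw [Finset.sum_comm]
    exact Finset.sum_congr rfl fun n _ => Finset.sum_congr rfl fun i _ => mul_comm _ _
  have hβfix : ∀ i σ, κ σ (β i) = β i := by
    intro i σ
    simp only [hβ, map_sum]
    have : ∀ n ∈ N, κ σ (b i n) = b i (act σ n) := fun n _ => (hH.equiv _ (hb i) σ n).symm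
    rw [Finset.sum_congr rfl this]
    refine Finset.sum_bijective (act σ) (hbij σ) ?_ ?_
    · intro n
      simp only [hNdef, Finset.mem_filter, Finset.mem_univ, true_and]
      exact hN σ n
    · intro n _; rfl
  choose β' hβ' using fun i => hfix (β i) (hβfix i)
  obtain ⟨d, hd⟩ := IsLocalization.exist_integer_multiples (nonZeroDivisors R) Finset.univ β'
  choose r hr using fun i => hd i (Finset.mem_univ i)
  refine ⟨(d : R), nonZeroDivisors.coe_ne_zero d, ?_⟩
  have : (d : R) • pullback R q (fibreSum q h) = ∑ i, r i • a i := by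
    funext t
    simp only [Pi.smul_apply, pullback_apply, key, Finset.sum_apply, Finset.smul_sum]
    refine Finset.sum_congr rfl fun i _ => ?_
    have h2 : algebraMap R K (r i) = (d : R) • β i := by
      rw [IsScalarTower.algebraMap_apply R F K, hr i, ← hβ' i,
        Algebra.smul_def, Algebra.smul_def, map_mul, ← IsScalarTower.algebraMap_apply R F K]
    rw [Algebra.smul_def (r i), h2]
    simp only [Algebra.smul_def]
    ring
  rw [this]
  exact H.sum_mem fun i _ => H.smul_mem (ha i) _

omit [IsDomain R] in
/-- Functions of `H` which factor through the surjection `q`. -/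
theorem mem_map_comap_pullback_iff {X Y : Type*} (H : Subalgebra R (X → K)) {q : X → Y}
    (hq : Function.Surjective q) (f : X → K) :
    f ∈ (Subalgebra.toSubmodule (H.comap (pullback R q))).map (pullback R q).toLinearMap ↔
      f ∈ H ∧ ∀ s s', q s = q s' → f s = f s' := by
  constructor
  · rintro ⟨ψ, hψ, rfl⟩
    exact ⟨hψ, fun s s' h => by simp [h]⟩
  · rintro ⟨hf, hinv⟩
    have hfq : pullback R q (fun y => f (Function.surjInv hq y)) = f := by
      funext x
      exact hinv _ _ (Function.surjInv_eq hq (q x))
    refine ⟨fun y => f (Function.surjInv hq y), ?_, hfq⟩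
    change pullback R q _ ∈ H
    rwa [hfq]

/-- Separation of points for the quotient order. -/
theorem quotient_sep [Finite T]
    (hfix : ∀ x : K, (∀ σ, κ σ x = x) → x ∈ Set.range (algebraMap F K))
    {act : Γ → T → T} {H : Subalgebra R (T → K)} (hH : IsHopfOrder κ act H)
    (q : T →+ T'') (hq : Function.Surjective q) (hbij : ∀ σ, Function.Bijective (act σ))
    (hN : ∀ σ n, q n = 0 ↔ q (act σ n) = 0) (s'' t'' : T'') (hst : s'' ≠ t'') :
    ∃ ψ ∈ H.comap (pullback R q), ψ s'' ≠ ψ t'' := by
  classical
  cases nonempty_fintype T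
  have : FaithfulSMul R K := FaithfulSMul.trans R F K
  by_contra hcon
  push Not at hcon
  obtain ⟨s, rfl⟩ := hq s''
  have h1 : ∀ h ∈ H, fibreSum q h (q s) = fibreSum q h t'' := by
    intro h hh
    obtain ⟨a, ha0, ha⟩ := exists_smul_fibreSum_mem hfix hH q hbij hN hh
    have hmem : a • fibreSum q h ∈ H.comap (pullback R q) := by
      change pullback R q (a • fibreSum q h) ∈ H
      rwa [map_smul]
    have := hcon _ hmem
    simp only [Pi.smul_apply] at this
    exact smul_right_injective K ha0 this
  have h2 : ∀ f ∈ Submodule.span K (H : Set (T → K)),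
      fibreSum q f (q s) = fibreSum q f t'' := by
    intro f hf
    induction hf using Submodule.span_induction with
    | mem x hx => exact h1 x hx
    | zero => simp [fibreSum]
    | add x y _ _ hx hy =>
      simp only [fibreSum, Pi.add_apply, Finset.sum_add_distrib] at hx hy ⊢
      rw [hx, hy]
    | smul c x _ hx =>
      simp only [fibreSum, Pi.smul_apply, ← Finset.smul_sum] at hx ⊢
      rw [hx]
  have h3 := h2 _ (single_mem_span H hH.sep s)
  rw [fibreSum_single, fibreSum_single, if_pos rfl, if_neg hst] at h3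
  exact one_ne_zero h3

/-- Stability under comultiplication for the quotient order (basis argument, twice). -/
theorem quotient_comul [IsPrincipalIdealRing R]
    (hfix : ∀ x : K, (∀ σ, κ σ x = x) → x ∈ Set.range (algebraMap F K))
    {act : Γ → T → T} {H : Subalgebra R (T → K)} (hH : IsHopfOrder κ act H)
    (hact : ∀ σ, Function.Surjective (act σ))
    (q : T →+ T'') (hq : Function.Surjective q) {ψ : T'' → K}
    (hψ : ψ ∈ H.comap (pullback R q)) :
    IsDecomp (Subalgebra.toSubmodule (H.comap (pullback R q)))
      (Subalgebra.toSubmodule (H.comap (pullback R q))) (fun s t => ψ (s + t)) := by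
  have : FaithfulSMul R K := FaithfulSMul.trans R F K
  set H'' := H.comap (pullback R q) with hH''
  set Hq : Submodule R (T → K) :=
    (Subalgebra.toSubmodule H'').map (pullback R q).toLinearMap with hHqdef
  have hHq : ∀ f, f ∈ Hq ↔ f ∈ H ∧ ∀ s s', q s = q s' → f s = f s' :=
    mem_map_comap_pullback_iff H hq
  have hHqle : Hq ≤ Subalgebra.toSubmodule H := fun f hf => ((hHq f).1 hf).1
  have hfgH : (Subalgebra.toSubmodule H).FG := (fg_toSubmodule_iff H).2 hH.fg
  have : IsNoetherian R (Subalgebra.toSubmodule H) := by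
    have : Module.Finite R (Subalgebra.toSubmodule H) := Module.Finite.iff_fg.2 hfgH
    infer_instance
  have hfgHq : Hq.FG := Submodule.FG.of_le_of_isNoetherian hHqle
  set Φ : T → T → K := fun s t => ψ (q s + q t) with hΦdef
  have hΦ : IsDecomp (Subalgebra.toSubmodule H) (Subalgebra.toSubmodule H) Φ :=
    (hH.comul _ hψ).congr fun s t => by simp [Φ]
  -- Step 1: invariance in the first variable
  obtain ⟨n, h, hhR, hhmem, hhexp⟩ := exists_basis_family (Subalgebra.toSubmodule H) hfgH
  have hhK : LinearIndependent K h :=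
    linearIndependent_of_equivariant_of_isFractionRing hfix hact hhR
      (fun j σ x => hH.equiv _ (hhmem j) σ x)
  obtain ⟨g, hgmem, hg⟩ := hΦ.expand h hhexp
  have hgq : ∀ j, g j ∈ Hq := fun j => (hHq _).2 ⟨hgmem j, fun s s' hss' =>
    coeff_eq_of_linearIndependent hhK hg (fun t => by simp [Φ, hss']) j⟩
  have hΦ1 : IsDecomp Hq (Subalgebra.toSubmodule H) Φ :=
    ⟨Fin n, inferInstance, g, h, hgq, hhmem, hg⟩
  -- Step 2: invariance in the second variable
  obtain ⟨m, u, huR, humem, huexp⟩ := exists_basis_family Hq hfgHq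
  have huK : LinearIndependent K u :=
    linearIndependent_of_equivariant_of_isFractionRing hfix hact huR
      (fun k σ x => hH.equiv _ (hHqle (humem k)) σ x)
  obtain ⟨w, hwmem, hw⟩ := hΦ1.flip.expand u huexp
  have hwq : ∀ k, w k ∈ Hq := fun k => (hHq _).2 ⟨hwmem k, fun t t' htt' =>
    coeff_eq_of_linearIndependent huK hw (fun s => by simp [Φ, htt']) k⟩
  have hΦ2' : IsDecomp Hq Hq (fun t s => Φ s t) := ⟨Fin m, inferInstance, w, u, hwq, humem, hw⟩
  have hΦ2 : IsDecomp Hq Hq Φ := hΦ2'.flip
  -- Step 3: descend along `q`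
  obtain ⟨ι, _, a, b, ha, hb, hab⟩ := hΦ2
  have ha' : ∀ i, ∃ y, y ∈ Subalgebra.toSubmodule H'' ∧ pullback R q y = a i :=
    fun i => Submodule.mem_map.1 (ha i)
  have hb' : ∀ i, ∃ y, y ∈ Subalgebra.toSubmodule H'' ∧ pullback R q y = b i :=
    fun i => Submodule.mem_map.1 (hb i)
  choose a'' ha'' haa using ha'
  choose b'' hb'' hbb using hb'
  refine ⟨ι, inferInstance, a'', b'', ha'', hb'', fun s'' t'' => ?_⟩
  obtain ⟨s, rfl⟩ := hq s''
  obtain ⟨t, rfl⟩ := hq t''
  have h1 := hab s t
  simp only [hΦdef] at h1
  change ψ (q s + q t) = _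
  rw [h1]
  refine Finset.sum_congr rfl fun i _ => ?_
  rw [← haa i, ← hbb i]
  rfl

/-- Quotients of Hopf orders by surjective additive equivariant maps. -/
theorem IsHopfOrder.comap_pullback [IsPrincipalIdealRing R] [Finite T]
    (hfix : ∀ x : K, (∀ σ, κ σ x = x) → x ∈ Set.range (algebraMap F K))
    {act : Γ → T → T} {act'' : Γ → T'' → T''} {H : Subalgebra R (T → K)}
    (hH : IsHopfOrder κ act H) (hact : ∀ σ, Function.Surjective (act σ))
    (hact''0 : ∀ σ, act'' σ 0 = 0)
    (q : T →+ T'') (hq : Function.Surjective q) (hqact : ∀ σ t, q (act σ t) = act'' σ (q t)) :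
    IsHopfOrder κ act'' (H.comap (pullback R q)) where
  fg := by
    have hfgH : (Subalgebra.toSubmodule H).FG := (fg_toSubmodule_iff H).2 hH.fg
    have : IsNoetherian R (Subalgebra.toSubmodule H) := by
      have : Module.Finite R (Subalgebra.toSubmodule H) := Module.Finite.iff_fg.2 hfgH
      infer_instance
    rw [← fg_toSubmodule_iff]
    refine Submodule.fg_of_fg_map_injective (pullback R q).toLinearMap
      (pullback_injective R hq) (Submodule.FG.of_le_of_isNoetherian
        (T := Subalgebra.toSubmodule H) ?_)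
    rintro _ ⟨ψ, hψ, rfl⟩
    exact hψ
  equiv := by
    intro ψ hψ σ x
    obtain ⟨t, rfl⟩ := hq x
    rw [← hqact]
    exact hH.equiv _ hψ σ t
  sep := by
    have : Finite T'' := Finite.of_surjective q hq
    have hbij : ∀ σ, Function.Bijective (act σ) := fun σ =>
      ⟨Finite.injective_iff_surjective.2 (hact σ), hact σ⟩
    have hact''s : ∀ σ, Function.Surjective (act'' σ) := by
      intro σ x
      obtain ⟨t, rfl⟩ := hq x
      obtain ⟨t', rfl⟩ := hact σ t
      exact ⟨q t', (hqact σ t').symm⟩
    have hact''i : ∀ σ, Function.Injective (act'' σ) := fun σ =>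
      Finite.injective_iff_surjective.2 (hact''s σ)
    have hN : ∀ σ n, q n = 0 ↔ q (act σ n) = 0 := by
      intro σ n
      rw [hqact]
      constructor
      · intro h; rw [h, hact''0]
      · intro h; exact hact''i σ (h.trans (hact''0 σ).symm)
    exact quotient_sep hfix hH q hq hbij hN
  comul := fun ψ hψ => quotient_comul hfix hH hact q hq hψ

end Quotient

end Fermat.Agent.S32.HopfClosure
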