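import Fermat.Agent.S32.HopfClosureZl
import Fermat.Agent.S19.HopfOrderFlat

/-!
# S32 (W12): bridge to the packaging predicate `Fermat.Agent.S19.HopfOrder.IsHopfOrder`

The packaging theorems (`exists_hopfAlgebra_of_isHopfOrder`, `s19_of_isHopfOrder`,
`isFlatAt_of_isHopfOrder`) consume `HopfOrder.IsHopfOrder ρ H`, which is
`HopfClosureZl.IsHopfOrderZl ℓ ρ H` together with surjectivity of the action, `ρ σ 0 = 0`, and the
(automatic) stability under the antipode.
-/

set_option autoImplicit false
set_option linter.unusedSectionVars false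

namespace Fermat.Agent.S32.BridgePack

open GaloisRep Fermat.Agent.S32.HopfClosure Fermat.Agent.S32.HopfClosureZl

variable {ℓ : ℕ} [hℓ : Fact ℓ.Prime] {T : Type} [AddCommGroup T] [Finite T]
  {ρ : (AlgebraicClosure ℚ ≃ₐ[ℚ] AlgebraicClosure ℚ) → T → T}
  {H : Subalgebra (ratLocalizedAt ℓ) (T → AlgebraicClosure ℚ)}

/-- From the closure predicate to the packaging predicate. -/
theorem pack_of_isHopfOrderZl (h : IsHopfOrderZl ℓ ρ H) (hs : ∀ σ, Function.Surjective (ρ σ))
    (h0 : ∀ σ, ρ σ 0 = 0) : Fermat.Agent.S19.HopfOrder.IsHopfOrder ρ H where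
  surj := hs
  map_zero := h0
  finite := h.fg
  equivariant := fun φ hφ σ t => h.equiv φ hφ σ t
  separates := h.sep
  comul := fun φ hφ => (h.comul φ hφ).exists_fin
  neg := h.neg_mem

/-- From the packaging predicate to the closure predicate. -/
theorem isHopfOrderZl_of_pack (h : Fermat.Agent.S19.HopfOrder.IsHopfOrder ρ H) :
    IsHopfOrderZl ℓ ρ H where
  fg := h.finite
  equiv := fun φ hφ σ t => h.equivariant φ hφ σ t
  sep := h.separates
  comul := fun φ hφ => by
    obtain ⟨n, a, b, hab⟩ := h.comul φ hφ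
    exact IsDecomp.of_fin a b hab

end Fermat.Agent.S32.BridgePack
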