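import Mathlib

/-!
# PROJECT F (S32), the subquotient lemma (S32-2)

`A`, `B` additive groups with actions of a group `G`, `B` finite.  If every integral combination
`x = ∑ mᵢ gᵢ` which kills `A` also kills `B`, then `B` is a `G`-equivariant quotient of a
`G`-stable subgroup of the power `A ^ (B × A)` (`exists_subquotient`).

Proof: `E₀ := ℤ[G] / Ann A` embeds in `A ^ A` (`x ↦ (x v)_v`) and `B` is a quotient of `E₀ ^ B`.
-/

set_option autoImplicit false

namespace Fermat.Agent.S32.Subquot

variable {G : Type*} [Group G] {A B : Type*} [AddCommGroup A] [AddCommGroup B]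

/-- The action of an integral combination of group elements. -/
noncomputable def act (a : G →* AddMonoid.End A) : (G →₀ ℤ) →+ AddMonoid.End A :=
  Finsupp.liftAddHom fun g => (zmultiplesHom (AddMonoid.End A)) (a g)

@[simp]
theorem act_single (a : G →* AddMonoid.End A) (g : G) (m : ℤ) :
    act a (Finsupp.single g m) = m • a g := by
  simp [act]

theorem act_mapDomain_mul_left (a : G →* AddMonoid.End A) (g : G) (x : G →₀ ℤ) :
    act a (Finsupp.mapDomain (fun h => g * h) x) = a g * act a x := by
  induction x using Finsupp.induction_linear with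
  | zero => simp
  | add x y hx hy => rw [Finsupp.mapDomain_add, map_add, map_add, hx, hy, mul_add]
  | single h m =>
    rw [Finsupp.mapDomain_single, act_single, act_single, map_mul, mul_smul_comm]

/-- `act` as a finite sum. -/
theorem act_eq_sum (a : G →* AddMonoid.End A) {ι : Type*} (s : Finset ι) (m : ι → ℤ)
    (g : ι → G) : act a (∑ i ∈ s, Finsupp.single (g i) (m i)) = ∑ i ∈ s, m i • a (g i) := by
  rw [map_sum]
  exact Finset.sum_congr rfl fun i _ => act_single a (g i) (m i)

theorem end_add_apply (f g : AddMonoid.End A) (v : A) : (f + g) v = f v + g v := rfl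

theorem end_sub_apply (f g : AddMonoid.End A) (v : A) : (f - g) v = f v - g v := rfl

section Main

/-- `X ↦ ((w, v) ↦ X_w v)`. -/
noncomputable def psi (a : G →* AddMonoid.End A) : (B → (G →₀ ℤ)) →+ (B × A → A) where
  toFun X p := act a (X p.1) p.2
  map_zero' := by ext p; simp
  map_add' X Y := by ext p; simp [end_add_apply]

/-- `X ↦ ∑_w X_w w`. -/
noncomputable def phi [Fintype B] (b : G →* AddMonoid.End B) : (B → (G →₀ ℤ)) →+ B where
  toFun X := ∑ w, act b (X w) w
  map_zero' := by simp
  map_add' X Y := by simp [end_add_apply, Finset.sum_add_distrib]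

variable {a : G →* AddMonoid.End A} {b : G →* AddMonoid.End B}

theorem phi_eq_of_psi_eq [Fintype B] (hTR : ∀ x : G →₀ ℤ, act a x = 0 → act b x = 0)
    {X Y : B → (G →₀ ℤ)} (h : psi a X = psi a Y) : phi b X = phi b Y := by
  have hw : ∀ w, act b (X w) = act b (Y w) := by
    intro w
    have h0 : act a (X w - Y w) = 0 := by
      ext v
      have := congrFun h (w, v)
      simp only [psi, AddMonoidHom.coe_mk, ZeroHom.coe_mk] at this
      rw [map_sub, end_sub_apply, this, sub_self]
      rfl
    have := hTR _ h0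
    rwa [map_sub, sub_eq_zero] at this
  simp only [phi, AddMonoidHom.coe_mk, ZeroHom.coe_mk, hw]

/-- translation of a family by `g`. -/
noncomputable def trans (g : G) (X : B → (G →₀ ℤ)) : B → (G →₀ ℤ) :=
  fun w => Finsupp.mapDomain (fun h => g * h) (X w)

omit [AddCommGroup B] in
theorem psi_trans (g : G) (X : B → (G →₀ ℤ)) (p : B × A) :
    psi a (trans g X) p = a g (psi a X p) := by
  simp only [psi, trans, AddMonoidHom.coe_mk, ZeroHom.coe_mk, act_mapDomain_mul_left]
  rfl

theorem phi_trans [Fintype B] (g : G) (X : B → (G →₀ ℤ)) : phi b (trans g X) = b g (phi b X) := by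
  simp only [phi, trans, AddMonoidHom.coe_mk, ZeroHom.coe_mk, act_mapDomain_mul_left, map_sum]
  rfl

/-- **Subquotient lemma (S32-2).** -/
theorem exists_subquotient [Fintype B] (hTR : ∀ x : G →₀ ℤ, act a x = 0 → act b x = 0) :
    ∃ S : AddSubgroup (B × A → A),
      (∀ (g : G) (F : B × A → A), F ∈ S → (fun p => a g (F p)) ∈ S) ∧
      ∃ q : S →+ B, Function.Surjective q ∧
        ∀ (g : G) (F : S) (hF : (fun p => a g (F.1 p)) ∈ S), q ⟨_, hF⟩ = b g (q F) := by
  classical
  refine ⟨(psi a (B := B)).range, ?_, ?_⟩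
  · rintro g F ⟨X, rfl⟩
    exact ⟨trans g X, funext fun p => psi_trans g X p⟩
  · have hq : ∀ F : (psi a (B := B)).range, ∃ X, psi a X = F.1 := fun F => F.2
    choose rep hrep using hq
    have hwd : ∀ (F : (psi a (B := B)).range) (X : B → (G →₀ ℤ)), psi a X = F.1 →
        phi b (rep F) = phi b X := fun F X hX =>
      phi_eq_of_psi_eq hTR ((hrep F).trans hX.symm)
    refine ⟨⟨⟨fun F => phi b (rep F), ?_⟩, ?_⟩, ?_, ?_⟩
    · exact (hwd 0 0 (map_zero _)).trans (map_zero _)
    · intro F F'
      show phi b (rep (F + F')) = phi b (rep F) + phi b (rep F')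
      rw [hwd (F + F') (rep F + rep F') (by rw [map_add, hrep, hrep]; rfl), map_add]
    · intro w₀
      refine ⟨⟨psi a (Pi.single w₀ (Finsupp.single 1 1)), ⟨_, rfl⟩⟩, ?_⟩
      show phi b (rep _) = w₀
      rw [hwd _ (Pi.single w₀ (Finsupp.single 1 1)) rfl]
      simp only [phi, AddMonoidHom.coe_mk, ZeroHom.coe_mk]
      rw [Finset.sum_eq_single w₀]
      · simp
      · intro w _ hw
        simp [Pi.single_eq_of_ne hw]
      · intro h; exact absurd (Finset.mem_univ _) h
    · intro g F hF
      show phi b (rep _) = b g (phi b (rep F))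
      rw [hwd ⟨_, hF⟩ (trans g (rep F)) (funext fun p => by rw [psi_trans, hrep]), phi_trans]

end Main

end Fermat.Agent.S32.Subquot
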