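import Mathlib
import Fermat.Prelude.Def_GaloisRep_Flat
import Fermat.Agent.S30.Padic.TateModule
import Fermat.Agent.S32.Subquot

/-!
# S32 (W12): the two Galois modules of the transfer, as `MonoidHom`s into `AddMonoid.End`

* `torsAct m : G →* AddMonoid.End (torsionBy ℤ J m)` for a `DistribMulAction G J`;
* `levelHom ρ I : G_ℚ →* AddMonoid.End (V / I V)` for `ρ : GaloisRepAdic A` (the frozen
  `levelAction`);
* `Subquot.act` as a sum over the support (`act_eq_support_sum`);
* `tate_sum_mem` : an integral combination of group elements killing `J[pᵏ]` maps the Tate module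
  `Tp p J` into `pᵏ Tp p J`;
* `act_levelHom_eq_zero` : an integral combination mapping `V` into `I V` kills `V / I V`;
* `transfer_of_sum` : the hypothesis `hTR` of `OrderTransfer.exists_isHopfOrderZl_of_transfer`
  from a transfer statement in the shape of `TransferCore.rho_sum_mem`.
-/

set_option autoImplicit false

noncomputable section

namespace Fermat.Agent.S32.LevelActs

open Fermat.Agent.S32.Subquot Fermat.Agent.S30.Padic.TateModule

section Generic

variable {G : Type*} [Group G]

/-- `Subquot.act` as a finite sum over the support. -/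
theorem act_eq_support_sum {A : Type*} [AddCommGroup A] (a : G →* AddMonoid.End A)
    (x : G →₀ ℤ) : act a x = ∑ g ∈ x.support, x g • a g := by
  conv_lhs => rw [← Finsupp.sum_single x]
  exact act_eq_sum a x.support x id

/-- Evaluation of additive endomorphisms at a point. -/
def evalHom {A : Type*} [AddCommGroup A] (v : A) : AddMonoid.End A →+ A where
  toFun f := f v
  map_zero' := rfl
  map_add' _ _ := rfl

@[simp] theorem evalHom_apply {A : Type*} [AddCommGroup A] (v : A) (f : AddMonoid.End A) :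
    evalHom v f = f v := rfl

theorem act_apply {A : Type*} [AddCommGroup A] (a : G →* AddMonoid.End A) (x : G →₀ ℤ) (v : A) :
    act a x v = ∑ g ∈ x.support, x g • a g v := by
  rw [act_eq_support_sum]
  change evalHom v _ = _
  rw [map_sum]
  exact Finset.sum_congr rfl fun g _ => by rw [map_zsmul]; rfl

variable {J : Type*} [AddCommGroup J] [DistribMulAction G J]

theorem smul_mem_torsionBy (m : ℤ) (σ : G) {y : J} (hy : y ∈ Submodule.torsionBy ℤ J m) :
    σ • y ∈ Submodule.torsionBy ℤ J m := by
  rw [Submodule.mem_torsionBy_iff] at hy ⊢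
  have h : σ • (m • y) = m • (σ • y) := map_zsmul (DistribSMul.toAddMonoidHom J σ) m y
  rw [← h, hy, smul_zero]

/-- The action on the `m`-torsion. -/
def torsAct (m : ℤ) : G →* AddMonoid.End (Submodule.torsionBy ℤ J m) where
  toFun σ :=
    { toFun := fun y => ⟨σ • y.1, smul_mem_torsionBy m σ y.2⟩
      map_zero' := Subtype.ext (smul_zero σ)
      map_add' := fun y z => Subtype.ext (smul_add σ y.1 z.1) }
  map_one' := by
    ext y
    exact one_smul G y.1
  map_mul' σ τ := by
    ext y
    exact mul_smul σ τ y.1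

@[simp] theorem coe_torsAct_apply (m : ℤ) (σ : G) (y : Submodule.torsionBy ℤ J m) :
    ((torsAct (J := J) m σ y : Submodule.torsionBy ℤ J m) : J) = σ • (y : J) := rfl

/-- The `k`-th coordinate of the Tate module. -/
def coordHom (p : ℕ) [Fact p.Prime] (k : ℕ) : Tp p J →+ J where
  toFun v := v.1 k
  map_zero' := rfl
  map_add' _ _ := rfl

theorem coord_mem_torsionBy (p : ℕ) [Fact p.Prime] (k : ℕ) (v : Tp p J) :
    v.1 k ∈ Submodule.torsionBy ℤ J ((p : ℤ) ^ k) := by
  rw [Submodule.mem_torsionBy_iff]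
  have := Tp.pow_smul_apply v k
  rw [← natCast_zsmul] at this
  simpa using this

/-- An integral combination of group elements which kills `J[pᵏ]` maps `Tp p J` into
`pᵏ Tp p J`. -/
theorem tate_sum_mem (p : ℕ) [Fact p.Prime] (k : ℕ) (x : G →₀ ℤ)
    (h : act (torsAct (G := G) (J := J) ((p : ℤ) ^ k)) x = 0) (v : Tp p J) :
    (∑ g ∈ x.support, x g • Tp.galoisHom (p := p) (J := J) G g) v ∈
      (Ideal.span {(p : ℤ_[p])} ^ k) • (⊤ : Submodule ℤ_[p] (Tp p J)) := by
  rw [Tp.mem_pow_smul_top_iff]
  have h1 : ((∑ g ∈ x.support, x g • Tp.galoisHom (p := p) (J := J) G g) v).1 k =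
      ∑ g ∈ x.support, x g • (g • v.1 k) := by
    rw [LinearMap.sum_apply]
    change coordHom p k _ = _
    rw [map_sum]
    refine Finset.sum_congr rfl fun g _ => ?_
    rw [LinearMap.smul_apply, map_zsmul]
    rfl
  rw [h1]
  have h2 := act_apply (torsAct (G := G) (J := J) ((p : ℤ) ^ k)) x ⟨v.1 k, coord_mem_torsionBy p k v⟩
  rw [h] at h2
  have h3 := congrArg (Submodule.subtype _) h2
  rw [map_sum] at h3
  simp only [map_zsmul, Submodule.subtype_apply, coe_torsAct_apply] at h3
  exact h3.symm

end Generic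

section Level

variable {A : Type} [CommRing A] [IsLocalRing A] (ρ : GaloisRepAdic A) (I : Ideal A)

/-- The frozen `levelAction` as a monoid hom into the additive endomorphisms of `V / I V`. -/
def levelHom : (AlgebraicClosure ℚ ≃ₐ[ℚ] AlgebraicClosure ℚ) →*
    AddMonoid.End (ρ.V ⧸ (I • (⊤ : Submodule A ρ.V))) where
  toFun σ := (ρ.levelAction I σ).toAddMonoidHom
  map_one' := by
    ext y
    induction y using Submodule.Quotient.induction_on with
    | H v =>
      change ρ.levelAction I 1 (Submodule.Quotient.mk v) = Submodule.Quotient.mk v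
      simp [GaloisRepAdic.levelAction]
  map_mul' σ τ := by
    ext y
    induction y using Submodule.Quotient.induction_on with
    | H v =>
      change ρ.levelAction I (σ * τ) (Submodule.Quotient.mk v) =
        ρ.levelAction I σ (ρ.levelAction I τ (Submodule.Quotient.mk v))
      simp [GaloisRepAdic.levelAction]

@[simp] theorem levelHom_apply (σ : AlgebraicClosure ℚ ≃ₐ[ℚ] AlgebraicClosure ℚ)
    (y : ρ.V ⧸ (I • (⊤ : Submodule A ρ.V))) : levelHom ρ I σ y = ρ.levelAction I σ y := rfl

theorem levelHom_mk (σ : AlgebraicClosure ℚ ≃ₐ[ℚ] AlgebraicClosure ℚ) (v : ρ.V) :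
    levelHom ρ I σ (Submodule.Quotient.mk v) = Submodule.Quotient.mk (ρ.ρ σ v) := rfl

/-- An integral combination of Galois elements mapping `V` into `I V` kills `V / I V`. -/
theorem act_levelHom_eq_zero (x : (AlgebraicClosure ℚ ≃ₐ[ℚ] AlgebraicClosure ℚ) →₀ ℤ)
    (h : ∀ v : ρ.V, (∑ g ∈ x.support, x g • ρ.ρ g) v ∈ I • (⊤ : Submodule A ρ.V)) :
    act (levelHom ρ I) x = 0 := by
  ext y
  induction y using Submodule.Quotient.induction_on with
  | H v =>
    rw [act_apply]
    simp only [levelHom_mk]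
    have : ∑ g ∈ x.support, x g • (Submodule.Quotient.mk (ρ.ρ g v) :
        ρ.V ⧸ (I • (⊤ : Submodule A ρ.V))) =
        Submodule.Quotient.mk ((∑ g ∈ x.support, x g • ρ.ρ g) v) := by
      rw [LinearMap.sum_apply, ← Submodule.mkQ_apply, map_sum]
      refine Finset.sum_congr rfl fun g _ => ?_
      rw [LinearMap.smul_apply, map_zsmul]
      rfl
    rw [this]
    exact (Submodule.Quotient.mk_eq_zero _).2 (h v)

/-- The hypothesis `hTR` of the order transfer, from a transfer statement in the shape of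
`TransferCore.rho_sum_mem` (for the Tate module of a `G_ℚ`-module `J`). -/
theorem transfer_of_sum {J : Type*} [AddCommGroup J]
    [DistribMulAction (AlgebraicClosure ℚ ≃ₐ[ℚ] AlgebraicClosure ℚ) J]
    (p : ℕ) [Fact p.Prime] (k : ℕ)
    (htr : ∀ {ι : Type} (s : Finset ι) (m : ι → ℤ)
      (g : ι → (AlgebraicClosure ℚ ≃ₐ[ℚ] AlgebraicClosure ℚ)),
      (∀ v : Tp p J, (∑ i ∈ s, m i • Tp.galoisHom (p := p) (J := J)
        (AlgebraicClosure ℚ ≃ₐ[ℚ] AlgebraicClosure ℚ) (g i)) v ∈
          (Ideal.span {(p : ℤ_[p])} ^ k) • (⊤ : Submodule ℤ_[p] (Tp p J))) →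
      ∀ v : ρ.V, (∑ i ∈ s, m i • ρ.ρ (g i)) v ∈ I • (⊤ : Submodule A ρ.V))
    (x : (AlgebraicClosure ℚ ≃ₐ[ℚ] AlgebraicClosure ℚ) →₀ ℤ)
    (h : act (torsAct (G := AlgebraicClosure ℚ ≃ₐ[ℚ] AlgebraicClosure ℚ) (J := J)
      ((p : ℤ) ^ k)) x = 0) :
    act (levelHom ρ I) x = 0 :=
  act_levelHom_eq_zero ρ I x (htr x.support x id (tate_sum_mem p k x h))

end Level

end Fermat.Agent.S32.LevelActs
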