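import Fermat.Agent.S32.OrderTransfer
import Fermat.Agent.S32.LevelActs
import Fermat.Agent.S32.BridgePack

/-!
# S32 (W12): `IsFlatAt` from (i) Hopf orders on the torsion of a Galois module `J` and (ii) a
transfer statement from the Tate module of `J` to `ρ`

`isFlatAt_of_transfer` : let `ρ : GaloisRepAdic A`, `J` a `G_ℚ`-module such that every `J[pᵏ]` is
finite and carries a function-level Hopf order over `ℤ_(p)`.  Suppose that for every ideal `I` of
finite index there is `k` such that every integral combination `x = ∑ mᵢ gᵢ` of Galois elements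
with `x (T_p J) ⊆ pᵏ T_p J` satisfies `ρ(x) V ⊆ I V` (the shape of `TransferCore.rho_sum_mem`).
Then `ρ` is flat at `p`.
-/

set_option autoImplicit false
set_option linter.unusedSectionVars false

namespace Fermat.Agent.S32.FlatOfTransfer

open GaloisRep Fermat.Agent.S32.HopfClosure Fermat.Agent.S32.HopfClosureZl
open Fermat.Agent.S32.Subquot Fermat.Agent.S32.LevelActs Fermat.Agent.S32.OrderTransfer
open Fermat.Agent.S32.BridgePack Fermat.Agent.S30.Padic.TateModule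

variable {A : Type} [CommRing A] [IsLocalRing A]

/-- **`IsFlatAt` from Hopf orders on `J[pᵏ]` and a transfer statement.** -/
theorem isFlatAt_of_transfer (ρ : GaloisRepAdic A) (p : ℕ) [Fact p.Prime]
    (hres : Finite (IsLocalRing.ResidueField A))
    {J : Type} [AddCommGroup J] [DistribMulAction (AlgebraicClosure ℚ ≃ₐ[ℚ] AlgebraicClosure ℚ) J]
    (hfinJ : ∀ k : ℕ, Finite (Submodule.torsionBy ℤ J ((p : ℤ) ^ k)))
    (hord : ∀ k : ℕ, ∃ H₀ : Subalgebra (ratLocalizedAt p)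
        (Submodule.torsionBy ℤ J ((p : ℤ) ^ k) → AlgebraicClosure ℚ),
      IsHopfOrderZl p (fun σ t => torsAct
        (G := AlgebraicClosure ℚ ≃ₐ[ℚ] AlgebraicClosure ℚ) (J := J) ((p : ℤ) ^ k) σ t) H₀)
    (htr : ∀ I : Ideal A, Finite (A ⧸ I) → ∃ k : ℕ, ∀ {ι : Type} (s : Finset ι) (m : ι → ℤ)
      (g : ι → (AlgebraicClosure ℚ ≃ₐ[ℚ] AlgebraicClosure ℚ)),
      (∀ v : Tp p J, (∑ i ∈ s, m i • Tp.galoisHom (p := p) (J := J)
        (AlgebraicClosure ℚ ≃ₐ[ℚ] AlgebraicClosure ℚ) (g i)) v ∈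
          (Ideal.span {(p : ℤ_[p])} ^ k) • (⊤ : Submodule ℤ_[p] (Tp p J))) →
      ∀ v : ρ.V, (∑ i ∈ s, m i • ρ.ρ (g i)) v ∈ I • (⊤ : Submodule A ρ.V)) :
    ρ.IsFlatAt p := by
  refine Fermat.Agent.S19.HopfOrder.isFlatAt_of_isHopfOrder ρ p hres fun I hI => ?_
  have hV : Finite (ρ.V ⧸ (I • (⊤ : Submodule A ρ.V))) := Module.finite_of_finite (A ⧸ I)
  obtain ⟨k, hk⟩ := htr I hI
  have := hfinJ k
  obtain ⟨H₀, hH₀⟩ := hord k
  obtain ⟨H', hH'⟩ := exists_isHopfOrderZl_of_transfer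
    (a := torsAct (G := AlgebraicClosure ℚ ≃ₐ[ℚ] AlgebraicClosure ℚ) (J := J) ((p : ℤ) ^ k))
    (b := levelHom ρ I) (transfer_of_sum ρ I p k hk) hH₀
  refine ⟨hV, H', pack_of_isHopfOrderZl hH'
    (Fermat.Agent.S19.HopfOrder.levelAction_surjective ρ I) (fun σ => map_zero _)⟩

/-- The same, with the transfer statement for the powers of the maximal ideal (the literal shape
of `TransferCore.rho_sum_mem`). -/
theorem isFlatAt_of_transfer_pow (ρ : GaloisRepAdic A) (p : ℕ) [Fact p.Prime]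
    (hres : Finite (IsLocalRing.ResidueField A))
    {J : Type} [AddCommGroup J] [DistribMulAction (AlgebraicClosure ℚ ≃ₐ[ℚ] AlgebraicClosure ℚ) J]
    (hfinJ : ∀ k : ℕ, Finite (Submodule.torsionBy ℤ J ((p : ℤ) ^ k)))
    (hord : ∀ k : ℕ, ∃ H₀ : Subalgebra (ratLocalizedAt p)
        (Submodule.torsionBy ℤ J ((p : ℤ) ^ k) → AlgebraicClosure ℚ),
      IsHopfOrderZl p (fun σ t => torsAct
        (G := AlgebraicClosure ℚ ≃ₐ[ℚ] AlgebraicClosure ℚ) (J := J) ((p : ℤ) ^ k) σ t) H₀)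
    (htr : ∀ n : ℕ, ∃ k : ℕ, ∀ {ι : Type} (s : Finset ι) (m : ι → ℤ)
      (g : ι → (AlgebraicClosure ℚ ≃ₐ[ℚ] AlgebraicClosure ℚ)),
      (∀ v : Tp p J, (∑ i ∈ s, m i • Tp.galoisHom (p := p) (J := J)
        (AlgebraicClosure ℚ ≃ₐ[ℚ] AlgebraicClosure ℚ) (g i)) v ∈
          (Ideal.span {(p : ℤ_[p])} ^ k) • (⊤ : Submodule ℤ_[p] (Tp p J))) →
      ∀ v : ρ.V, (∑ i ∈ s, m i • ρ.ρ (g i)) v ∈
        (IsLocalRing.maximalIdeal A ^ n) • (⊤ : Submodule A ρ.V)) :
    ρ.IsFlatAt p := by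
  refine isFlatAt_of_transfer ρ p hres hfinJ hord fun I hI => ?_
  obtain ⟨n, hn⟩ := IsLocalRing.exists_maximalIdeal_pow_le_of_isArtinianRing_quotient I
  obtain ⟨k, hk⟩ := htr n
  exact ⟨k, fun s m g h v => Submodule.smul_mono_left hn (hk s m g h v)⟩

end Fermat.Agent.S32.FlatOfTransfer
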