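import Fermat.Agent.S30
import Fermat.Agent.S31.Assembly
import Fermat.Agent.S31.HeckeModule
import Fermat.Agent.S31.TateArith

/-!
# PROJECT F (S32): the concrete Hecke-Galois module `Λ = T_p J₀(N)`

`S31/Assembly.HasHeckeModule` hides `Λ` inside an existential.  Here the same data are exposed for
the concrete `Λ := Tp p (JZero N)` with `r := Tp.galoisHom G_ℚ`: there is a Hecke action `θ` making
`Λ` a `S31.Core.HeckeModule`, commuting with ALL of Galois, and `p`-adically faithful.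
-/

set_option autoImplicit false
set_option linter.unusedSectionVars false

noncomputable section

namespace Fermat.Agent.S32.TateHecke

open scoped TensorProduct
open CongruenceSubgroup ModularCurve CuspForm
open Fermat.Agent.S31.Core
open Fermat.Agent.S31.LiftAlg Fermat.Agent.S31.HeckeAction
open Fermat.Agent.S30.Eigen.MultOne
open Fermat.Agent.S30.Padic.TateModule Fermat.Agent.S30.Arith Fermat.Agent.S30.Arith.TateInputs

/-- The conclusion: a Hecke action on `T_p J₀(N)` with all the properties. -/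
def HasTheta (p : ℕ) [Fact p.Prime] (N : ℕ) [NeZero N] (S : Finset ℕ) : Prop :=
  ∃ θ : heckeAlgebra N 2 (↑S : Set ℕ) →+* Module.End ℤ_[p] (Tp p (JZero N)),
    HeckeModule S (Ideal.span {(p : ℤ_[p])}) (Fermat.Agent.S31.Assembly.Tl N S)
      (Tp.galoisHom (p := p) (J := JZero N) GQ) (eps p) θ ∧
    (∀ (t : heckeAlgebra N 2 (↑S : Set ℕ)) (g : GQ),
      Commute (θ t) (Tp.galoisHom (p := p) (J := JZero N) GQ g)) ∧
    (∀ n : ℕ, ∃ n' : ℕ, ∀ t : heckeAlgebra N 2 (↑S : Set ℕ),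
      (∀ v : Tp p (JZero N), θ t v ∈
        (Ideal.span {(p : ℤ_[p])} ^ n') • (⊤ : Submodule ℤ_[p] (Tp p (JZero N)))) →
        t ∈ Ideal.span {(p : heckeAlgebra N 2 (↑S : Set ℕ)) ^ n})

theorem hasTheta_of (p : ℕ) [Fact p.Prime] (N : ℕ) [NeZero N] (S : Finset ℕ) (hpS : p ∈ S)
    (hNS : ∀ q : ℕ, q.Prime → q ∣ N → q ∈ S)
    (hred : Torsion.HasReductionAll N p) (hfin : {y : JZero N | p • y = 0}.Finite)
    {M : Type*} [AddCommGroup M] [Module.Free ℤ M] [Module.Finite ℤ M]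
    {τ : Nat.Primes → Module.End ℤ M}
    {eC : ℂ ⊗[ℤ] M ≃ₗ[ℂ] CuspForm (Gamma0 N) 2 × CuspForm (Gamma0 N) 2}
    (he : ∀ r x, eC ((τ r).baseChange ℂ x) = Prod.map (Tr N 2 r) (Tr N 2 r) (eC x))
    (ep : Tp p (JZero N) ≃ₗ[ℤ_[p]] ℤ_[p] ⊗[ℤ] M)
    (H3 : ∀ (r : Nat.Primes) (x : Tp p (JZero N)),
      ep (Tp.mapEnd (heckeEnd N r) x) = (τ r).baseChange ℤ_[p] (ep x)) :
    HasTheta p N S := by
  have he' : ∀ r, IsLift eC (Tr N 2 r) (τ r) := fun r => he r
  have hnotdvd : ∀ ℓ : ℕ, ℓ.Prime → ℓ ∉ S → ¬ ℓ ∣ N := fun ℓ hℓ hℓS h => hℓS (hNS ℓ hℓ h)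
  have hK : ∀ (t : heckeAlgebra N 2 (↑S : Set ℕ)) (g : GQ),
      Commute (theta (↑S : Set ℕ) p he' ep t) (Tp.galoisHom (p := p) (J := JZero N) GQ g) :=
    fun t g => (commute_galoisHom_theta (↑S : Set ℕ) p he' ep H3 g t).symm
  have hE : ∀ ℓ : ℕ, ℓ.Prime → ℓ ∉ S → ∀ A : ValuationSubring Qbar, A.LiesOverPrime ℓ →
      ∀ t : GQ, A.IsFrobeniusAt t ℓ →
        Tp.galoisHom (p := p) (J := JZero N) GQ t * Tp.galoisHom (p := p) (J := JZero N) GQ t -
          theta (↑S : Set ℕ) p he' ep (Fermat.Agent.S31.Assembly.Tl N S ℓ) *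
            Tp.galoisHom (p := p) (J := JZero N) GQ t +
            ((ℓ : ℕ) : Module.End ℤ_[p] (Tp p (JZero N))) = 0 := by
    intro ℓ hℓ hℓS A hA t ht
    have hℓS' : ℓ ∉ (↑S : Set ℕ) := by rwa [Finset.mem_coe]
    rw [Fermat.Agent.S31.Assembly.Tl_eq hℓ (hnotdvd ℓ hℓ hℓS) hℓS',
      theta_T (↑S : Set ℕ) p he' ep H3 hℓ (hnotdvd ℓ hℓ hℓS) hℓS']
    refine Fermat.Agent.S31.TateArith.eichlerShimura N p hred ℓ hℓ (hnotdvd ℓ hℓ hℓS) ?_ A hA t ht
    rintro rfl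
    exact hℓS hpS
  exact ⟨theta (↑S : Set ℕ) p he' ep,
    heckeModule_padic p hpS (Fermat.Agent.S31.Assembly.Tl N S)
      (Tp.galoisHom (p := p) (J := JZero N) GQ) (theta (↑S : Set ℕ) p he' ep)
      (Fermat.Agent.S31.TateArith.cont N p hfin) (fun ℓ g => hK _ g) hE,
    hK, hinj (↑S : Set ℕ) p he' ep⟩

/-- **The concrete Hecke-Galois module `T_p J₀(N)`.** -/
theorem hasTheta (p : ℕ) [Fact p.Prime] (N : ℕ) [NeZero N] (S : Finset ℕ) (hpS : p ∈ S)
    (hNS : ∀ q : ℕ, q.Prime → q ∣ N → q ∈ S) : HasTheta p N S := by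
  have hp : p.Prime := Fact.out
  obtain ⟨ι⟩ := Fermat.Agent.S30.Descent.PhiDictThm.nonempty_ringHom
  have h : Fermat.Agent.S30.Spec.PhiDict N ι := Fermat.Agent.S30.Descent.PhiDictThm.phiDict N ι
  obtain ⟨ep, H3⟩ := Fermat.Agent.S30.Final.TateCompare.h3_of_phiDict (h := h) p
    (Fermat.Agent.S30.frickeChar N)
    (fun r => Fermat.Agent.S30.Padic.TateChar.tauChar N r r.2)
    (Fermat.Agent.S30.frickeChar_hecke N h)
    (fun r => Fermat.Agent.S30.Hecke.Parabolic.tauPar ℤ ℤ N r r.2)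
    (Fermat.Agent.S30.Padic.TateChar.tateLattice N p)
    (fun r x => Fermat.Agent.S30.Padic.TateChar.tateLattice_tauChar p N r r.2 x)
  exact hasTheta_of p N S hpS hNS
    (Fermat.Agent.S30.Final.H1.hasReductionAll N p)
    (Fermat.Agent.S30.Descent.PhiDictThm.finite_torsion N hp.ne_zero)
    (Fermat.Agent.S30.Eigen.H4Final.latticeEquiv_tauPar N) ep H3

end Fermat.Agent.S32.TateHecke

end
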