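import Mathlib

/-!
# PROJECT F (S32), the `ρ`-side of the transfer lemma

`V` free of rank two over a local ring `T` with `2` a unit, `C` an involution of `V` with
`det C = -1` ("complex conjugation").  The bilinear quantities
`qM C X Y = 2 (tr XY - tr XYC) - (tr X - tr XC)(tr Y - tr YC)` and `qP` (with `+`) are, in a basis
adapted to `C`, `4 c(X) b(Y)` and `4 b(X) c(Y)`; we show (in an arbitrary basis) that each of
them takes a unit value on any spanning set of `End V` (`exists_isUnit_qM`, `exists_isUnit_qP`),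
and the trace pairing criterion `forall_mem_smul_top_of_trace_mul_mem`.
-/

set_option autoImplicit false

namespace Fermat.Agent.S32.RhoSide

open Matrix

variable {T : Type*} [CommRing T] {V : Type*} [AddCommGroup V] [Module T V]

/-- `2 (tr XY - tr XYC) - (tr X - tr XC)(tr Y - tr YC)`. -/
noncomputable def qM (C X Y : Module.End T V) : T :=
  (LinearMap.trace T V (X * Y) - LinearMap.trace T V (X * Y * C)) +
    (LinearMap.trace T V (X * Y) - LinearMap.trace T V (X * Y * C)) -
    (LinearMap.trace T V X - LinearMap.trace T V (X * C)) *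
      (LinearMap.trace T V Y - LinearMap.trace T V (Y * C))

/-- `2 (tr XY + tr XYC) - (tr X + tr XC)(tr Y + tr YC)`. -/
noncomputable def qP (C X Y : Module.End T V) : T :=
  (LinearMap.trace T V (X * Y) + LinearMap.trace T V (X * Y * C)) +
    (LinearMap.trace T V (X * Y) + LinearMap.trace T V (X * Y * C)) -
    (LinearMap.trace T V X + LinearMap.trace T V (X * C)) *
      (LinearMap.trace T V Y + LinearMap.trace T V (Y * C))

section Linear

variable (C : Module.End T V)

theorem qM_add_left (X X' Y : Module.End T V) : qM C (X + X') Y = qM C X Y + qM C X' Y := by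
  simp only [qM, add_mul, map_add]; ring

theorem qM_smul_left (a : T) (X Y : Module.End T V) : qM C (a • X) Y = a * qM C X Y := by
  simp only [qM, smul_mul_assoc, map_smul, smul_eq_mul]; ring

theorem qM_add_right (X Y Y' : Module.End T V) : qM C X (Y + Y') = qM C X Y + qM C X Y' := by
  simp only [qM, add_mul, mul_add, map_add]; ring

theorem qM_smul_right (a : T) (X Y : Module.End T V) : qM C X (a • Y) = a * qM C X Y := by
  simp only [qM, smul_mul_assoc, mul_smul_comm, map_smul, smul_eq_mul]; ring

theorem qM_zero_left (Y : Module.End T V) : qM C 0 Y = 0 := by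
  simp [qM]

theorem qM_zero_right (X : Module.End T V) : qM C X 0 = 0 := by
  simp [qM]

theorem qP_add_left (X X' Y : Module.End T V) : qP C (X + X') Y = qP C X Y + qP C X' Y := by
  simp only [qP, add_mul, map_add]; ring

theorem qP_smul_left (a : T) (X Y : Module.End T V) : qP C (a • X) Y = a * qP C X Y := by
  simp only [qP, smul_mul_assoc, map_smul, smul_eq_mul]; ring

theorem qP_add_right (X Y Y' : Module.End T V) : qP C X (Y + Y') = qP C X Y + qP C X Y' := by
  simp only [qP, add_mul, mul_add, map_add]; ring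

theorem qP_smul_right (a : T) (X Y : Module.End T V) : qP C X (a • Y) = a * qP C X Y := by
  simp only [qP, smul_mul_assoc, mul_smul_comm, map_smul, smul_eq_mul]; ring

theorem qP_zero_left (Y : Module.End T V) : qP C 0 Y = 0 := by
  simp [qP]

theorem qP_zero_right (X : Module.End T V) : qP C X 0 = 0 := by
  simp [qP]

/-- If `qM` takes values in an ideal on a spanning set, it does so everywhere. -/
theorem qM_mem_of_span (J : Ideal T) (S : Set (Module.End T V))
    (hS : Submodule.span T S = ⊤) (h : ∀ X ∈ S, ∀ Y ∈ S, qM C X Y ∈ J)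
    (X Y : Module.End T V) : qM C X Y ∈ J := by
  have h1 : ∀ X ∈ S, ∀ Y : Module.End T V, qM C X Y ∈ J := by
    intro X hX Y
    have hY : Y ∈ Submodule.span T S := hS ▸ Submodule.mem_top
    induction hY using Submodule.span_induction with
    | mem y hy => exact h X hX y hy
    | zero => rw [qM_zero_right]; exact J.zero_mem
    | add y z _ _ hy hz => rw [qM_add_right]; exact J.add_mem hy hz
    | smul a y _ hy => rw [qM_smul_right]; exact J.mul_mem_left a hy
  have hX : X ∈ Submodule.span T S := hS ▸ Submodule.mem_top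
  induction hX using Submodule.span_induction with
  | mem x hx => exact h1 x hx Y
  | zero => rw [qM_zero_left]; exact J.zero_mem
  | add y z _ _ hy hz => rw [qM_add_left]; exact J.add_mem hy hz
  | smul a y _ hy => rw [qM_smul_left]; exact J.mul_mem_left a hy

theorem qP_mem_of_span (J : Ideal T) (S : Set (Module.End T V))
    (hS : Submodule.span T S = ⊤) (h : ∀ X ∈ S, ∀ Y ∈ S, qP C X Y ∈ J)
    (X Y : Module.End T V) : qP C X Y ∈ J := by
  have h1 : ∀ X ∈ S, ∀ Y : Module.End T V, qP C X Y ∈ J := by
    intro X hX Y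
    have hY : Y ∈ Submodule.span T S := hS ▸ Submodule.mem_top
    induction hY using Submodule.span_induction with
    | mem y hy => exact h X hX y hy
    | zero => rw [qP_zero_right]; exact J.zero_mem
    | add y z _ _ hy hz => rw [qP_add_right]; exact J.add_mem hy hz
    | smul a y _ hy => rw [qP_smul_right]; exact J.mul_mem_left a hy
  have hX : X ∈ Submodule.span T S := hS ▸ Submodule.mem_top
  induction hX using Submodule.span_induction with
  | mem x hx => exact h1 x hx Y
  | zero => rw [qP_zero_left]; exact J.zero_mem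
  | add y z _ _ hy hz => rw [qP_add_left]; exact J.add_mem hy hz
  | smul a y _ hy => rw [qP_smul_left]; exact J.mul_mem_left a hy

end Linear

section MatrixSide

/-- matrix version of `qM`. -/
def qMm (C X Y : Matrix (Fin 2) (Fin 2) T) : T :=
  ((X * Y).trace - (X * Y * C).trace) + ((X * Y).trace - (X * Y * C).trace) -
    (X.trace - (X * C).trace) * (Y.trace - (Y * C).trace)

/-- matrix version of `qP`. -/
def qPm (C X Y : Matrix (Fin 2) (Fin 2) T) : T :=
  ((X * Y).trace + (X * Y * C).trace) + ((X * Y).trace + (X * Y * C).trace) -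
    (X.trace + (X * C).trace) * (Y.trace + (Y * C).trace)

theorem qM_eq_qMm (b : Module.Basis (Fin 2) T V) (C X Y : Module.End T V) :
    qM C X Y = qMm (LinearMap.toMatrix b b C) (LinearMap.toMatrix b b X)
      (LinearMap.toMatrix b b Y) := by
  simp only [qM, qMm, LinearMap.trace_eq_matrix_trace T b, LinearMap.toMatrix_mul]

theorem qP_eq_qPm (b : Module.Basis (Fin 2) T V) (C X Y : Module.End T V) :
    qP C X Y = qPm (LinearMap.toMatrix b b C) (LinearMap.toMatrix b b X)
      (LinearMap.toMatrix b b Y) := by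
  simp only [qP, qPm, LinearMap.trace_eq_matrix_trace T b, LinearMap.toMatrix_mul]

theorem qMm_12_21 (a b c d : T) (h : a * a + b * c = 1) :
    qMm !![a, b; c, d] !![0, 1; 0, 0] !![0, 0; 1, 0] = (1 - a) ^ 2 := by
  simp only [qMm, Matrix.mul_fin_two, Matrix.trace_fin_two_of]
  linear_combination (-1 : T) * h

theorem qMm_21_12 (a b c d : T) (h : c * b + d * d = 1) :
    qMm !![a, b; c, d] !![0, 0; 1, 0] !![0, 1; 0, 0] = (1 - d) ^ 2 := by
  simp only [qMm, Matrix.mul_fin_two, Matrix.trace_fin_two_of]
  linear_combination (-1 : T) * h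

theorem qPm_12_21 (a b c d : T) (h : a * a + b * c = 1) :
    qPm !![a, b; c, d] !![0, 1; 0, 0] !![0, 0; 1, 0] = (1 + a) ^ 2 := by
  simp only [qPm, Matrix.mul_fin_two, Matrix.trace_fin_two_of]
  linear_combination (-1 : T) * h

theorem qPm_21_12 (a b c d : T) (h : c * b + d * d = 1) :
    qPm !![a, b; c, d] !![0, 0; 1, 0] !![0, 1; 0, 0] = (1 + d) ^ 2 := by
  simp only [qPm, Matrix.mul_fin_two, Matrix.trace_fin_two_of]
  linear_combination (-1 : T) * h

end MatrixSide

section Units

variable [IsLocalRing T] [Module.Free T V] [Module.Finite T V]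

omit [IsLocalRing T] [Module.Free T V] [Module.Finite T V] in
/-- entries of the matrix of an involution of determinant `-1`. -/
theorem entries_of_involution (b : Module.Basis (Fin 2) T V) (C : Module.End T V)
    (hCC : C * C = 1) (hdet : LinearMap.det C = -1) :
    ∃ a b' c d : T, LinearMap.toMatrix b b C = !![a, b'; c, d] ∧ a * a + b' * c = 1 ∧
      c * b' + d * d = 1 ∧ a * (a + d) = 0 := by
  set mC := LinearMap.toMatrix b b C with hmC
  have h1 : mC * mC = 1 := by
    rw [hmC, ← LinearMap.toMatrix_mul, hCC, LinearMap.toMatrix_one]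
  have h2 : mC.det = -1 := by rw [hmC, LinearMap.det_toMatrix, hdet]
  refine ⟨mC 0 0, mC 0 1, mC 1 0, mC 1 1, (Matrix.eta_fin_two mC), ?_, ?_, ?_⟩
  · have := congrFun (congrFun h1 0) 0
    rw [Matrix.mul_apply, Fin.sum_univ_two, Matrix.one_apply_eq] at this
    exact this
  · have := congrFun (congrFun h1 1) 1
    rw [Matrix.mul_apply, Fin.sum_univ_two, Matrix.one_apply_eq] at this
    exact this
  · have h00 := congrFun (congrFun h1 0) 0
    rw [Matrix.mul_apply, Fin.sum_univ_two, Matrix.one_apply_eq] at h00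
    rw [Matrix.det_fin_two] at h2
    linear_combination h00 + h2

theorem exists_isUnit_qM (hrank : Module.finrank T V = 2) (h2 : IsUnit (2 : T))
    (C : Module.End T V) (hCC : C * C = 1) (hdet : LinearMap.det C = -1)
    (S : Set (Module.End T V)) (hS : Submodule.span T S = ⊤) :
    ∃ X ∈ S, ∃ Y ∈ S, IsUnit (qM C X Y) := by
  by_contra hcon0
  have hcon : ∀ X ∈ S, ∀ Y ∈ S, ¬ IsUnit (qM C X Y) := fun X hX Y hY hu =>
    hcon0 ⟨X, hX, Y, hY, hu⟩
  have hall := qM_mem_of_span C (IsLocalRing.maximalIdeal T) S hS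
    (fun X hX Y hY => (IsLocalRing.mem_maximalIdeal _).2 (hcon X hX Y hY))
  let b := Module.finBasisOfFinrankEq T V hrank
  obtain ⟨a, b', c, d, hm, h00, h11, had⟩ := entries_of_involution b C hCC hdet
  have e1 := hall (Matrix.toLin b b !![0, 1; 0, 0]) (Matrix.toLin b b !![0, 0; 1, 0])
  rw [qM_eq_qMm b, LinearMap.toMatrix_toLin, LinearMap.toMatrix_toLin, hm,
    qMm_12_21 a b' c d h00] at e1
  have e2 := hall (Matrix.toLin b b !![0, 0; 1, 0]) (Matrix.toLin b b !![0, 1; 0, 0])
  rw [qM_eq_qMm b, LinearMap.toMatrix_toLin, LinearMap.toMatrix_toLin, hm,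
    qMm_21_12 a b' c d h11] at e2
  have hu : 1 - a ∈ IsLocalRing.maximalIdeal T := Ideal.IsPrime.mem_of_pow_mem inferInstance 2 e1
  have hv : 1 - d ∈ IsLocalRing.maximalIdeal T := Ideal.IsPrime.mem_of_pow_mem inferInstance 2 e2
  have ha : IsUnit a := by
    have := IsLocalRing.isUnit_one_sub_self_of_mem_nonunits (1 - a)
      ((IsLocalRing.mem_maximalIdeal _).1 hu)
    rwa [sub_sub_cancel] at this
  have hsum : a + d = 0 := (ha.mul_right_eq_zero).1 had
  have h2m : (2 : T) ∈ IsLocalRing.maximalIdeal T := by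
    have : (2 : T) = (1 - a) + (1 - d) + (a + d) := by ring
    rw [this, hsum, add_zero]
    exact Ideal.add_mem _ hu hv
  exact ((IsLocalRing.mem_maximalIdeal _).1 h2m) h2

theorem exists_isUnit_qP (hrank : Module.finrank T V = 2) (h2 : IsUnit (2 : T))
    (C : Module.End T V) (hCC : C * C = 1) (hdet : LinearMap.det C = -1)
    (S : Set (Module.End T V)) (hS : Submodule.span T S = ⊤) :
    ∃ X ∈ S, ∃ Y ∈ S, IsUnit (qP C X Y) := by
  by_contra hcon0
  have hcon : ∀ X ∈ S, ∀ Y ∈ S, ¬ IsUnit (qP C X Y) := fun X hX Y hY hu =>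
    hcon0 ⟨X, hX, Y, hY, hu⟩
  have hall := qP_mem_of_span C (IsLocalRing.maximalIdeal T) S hS
    (fun X hX Y hY => (IsLocalRing.mem_maximalIdeal _).2 (hcon X hX Y hY))
  let b := Module.finBasisOfFinrankEq T V hrank
  obtain ⟨a, b', c, d, hm, h00, h11, had⟩ := entries_of_involution b C hCC hdet
  have e1 := hall (Matrix.toLin b b !![0, 1; 0, 0]) (Matrix.toLin b b !![0, 0; 1, 0])
  rw [qP_eq_qPm b, LinearMap.toMatrix_toLin, LinearMap.toMatrix_toLin, hm,
    qPm_12_21 a b' c d h00] at e1
  have e2 := hall (Matrix.toLin b b !![0, 0; 1, 0]) (Matrix.toLin b b !![0, 1; 0, 0])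
  rw [qP_eq_qPm b, LinearMap.toMatrix_toLin, LinearMap.toMatrix_toLin, hm,
    qPm_21_12 a b' c d h11] at e2
  have hu : 1 + a ∈ IsLocalRing.maximalIdeal T := Ideal.IsPrime.mem_of_pow_mem inferInstance 2 e1
  have hv : 1 + d ∈ IsLocalRing.maximalIdeal T := Ideal.IsPrime.mem_of_pow_mem inferInstance 2 e2
  have ha : IsUnit a := by
    have h := IsLocalRing.isUnit_one_sub_self_of_mem_nonunits (1 + a)
      ((IsLocalRing.mem_maximalIdeal _).1 hu)
    have : 1 - (1 + a) = -a := by ring
    rw [this] at h
    exact (IsUnit.neg_iff a).1 h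
  have hsum : a + d = 0 := (ha.mul_right_eq_zero).1 had
  have h2m : (2 : T) ∈ IsLocalRing.maximalIdeal T := by
    have : (2 : T) = (1 + a) + (1 + d) - (a + d) := by ring
    rw [this, hsum, sub_zero]
    exact Ideal.add_mem _ hu hv
  exact ((IsLocalRing.mem_maximalIdeal _).1 h2m) h2

end Units

section TracePairing

variable [Module.Free T V] [Module.Finite T V]

/-- If `tr (X Y) ∈ J` for all `Y`, then `X V ⊆ J V`. -/
theorem forall_mem_smul_top_of_trace_mul_mem (J : Ideal T) (X : Module.End T V)
    (h : ∀ Y : Module.End T V, LinearMap.trace T V (X * Y) ∈ J) (v : V) :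
    X v ∈ J • (⊤ : Submodule T V) := by
  classical
  let b := Module.Free.chooseBasis T V
  have hentry : ∀ i j, LinearMap.toMatrix b b X i j ∈ J := by
    intro i j
    have := h (Matrix.toLin b b (Matrix.single j i (1 : T)))
    rw [LinearMap.trace_eq_matrix_trace T b, LinearMap.toMatrix_mul, LinearMap.toMatrix_toLin,
      Matrix.trace_mul_comm, Matrix.trace_single_mul] at this
    simpa using this
  have hX : X v = ∑ i, (∑ j, LinearMap.toMatrix b b X i j * b.repr v j) • b i := by
    conv_lhs => rw [← b.sum_repr (X v)]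
    refine Finset.sum_congr rfl fun i _ => ?_
    congr 1
    have := LinearMap.toMatrix_mulVec_repr b b X v
    rw [← this, Matrix.mulVec, dotProduct]
  rw [hX]
  refine Submodule.sum_mem _ fun i _ => ?_
  refine Submodule.smul_mem_smul ?_ Submodule.mem_top
  exact J.sum_mem fun j _ => J.mul_mem_right _ (hentry i j)

end TracePairing

end Fermat.Agent.S32.RhoSide
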