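import Mathlib

/-!
# PROJECT F (S32), abstract transfer lemma

A ring `E` with a group action `r : G →* E`, a central "Hecke" action `θ : 𝕋 →+* E`, a character
`ε` and, for every `g`, a Hecke element `β g` with `r g + ε g • r g⁻¹ = θ (β g)` (Eichler-Shimura
in exact form), an involution `c₀` with `ε c₀ = -1` (complex conjugation).  If an integral
combination `∑ nᵢ gᵢ` acts as zero through `r`, then `θ` kills the Hecke trace `∑ nᵢ β (gᵢ)` times
the two off-diagonal products (`theta_sum_mul_xi`); with a faithfulness hypothesis and trace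
data `t` congruent to `π ∘ β` this gives `∑ nᵢ t (gᵢ) ∈ J` (`sum_trace_mem`).
No self-duality, no reducedness, no multiplicity one is used.
-/

set_option autoImplicit false

namespace Fermat.Agent.S32.Transfer

open Finset

variable {G : Type*} [Group G] {R₀ : Type*} [CommRing R₀] {E : Type*} [Ring E] [Algebra R₀ E]
  {𝕋 : Type*} [CommRing 𝕋] {T : Type*} [CommRing T]

section Involution

variable {c : E} (hc : c * c = 1)

include hc

theorem c_mul_M : c * (1 - c) = -(1 - c) := by rw [mul_sub, mul_one, hc]; abel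
theorem M_mul_c : (1 - c) * c = -(1 - c) := by rw [sub_mul, one_mul, hc]; abel
theorem c_mul_P : c * (1 + c) = 1 + c := by rw [mul_add, mul_one, hc]; abel
theorem P_mul_c : (1 + c) * c = 1 + c := by rw [add_mul, one_mul, hc]; abel
theorem M_mul_M : (1 - c) * (1 - c) = (1 - c) + (1 - c) := by
  rw [mul_sub, mul_one, M_mul_c hc]; abel
theorem P_mul_P : (1 + c) * (1 + c) = (1 + c) + (1 + c) := by
  rw [mul_add, mul_one, P_mul_c hc]
theorem P_mul_M : (1 + c) * (1 - c) = 0 := by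
  rw [mul_sub, mul_one, P_mul_c hc, sub_self]
theorem M_mul_P : (1 - c) * (1 + c) = 0 := by
  rw [mul_add, mul_one, M_mul_c hc]; abel

omit hc in
theorem P_add_M : (1 + c) + (1 - c) = 1 + 1 := by abel

end Involution

/-- Generic block computation: `M` an "idempotent times two" with `M c = c M = s M`, `s = ±1`
encoded by `hs`. -/
theorem block_aux {M c X W Y Y' : E} (s : E) (hs : s = 1 ∨ s = -1)
    (hMc : M * c = s * M) (hcM : c * M = s * M)
    (hMM : M * M = M + M) (h1 : X + W = Y) (h2 : X * c - c * W = Y')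
    (hY : Commute (Y + s * Y') M) (h2tf : ∀ y : E, y + y = 0 → y = 0) :
    M * X * M = (Y + s * Y') * M := by
  have e1 : M * Y * M = M * X * M + M * W * M := by rw [← h1, mul_add, add_mul]
  have e2 : M * Y' * M = s * (M * X * M) - s * (M * W * M) := by
    rw [← h2, mul_sub, sub_mul]
    have a1 : M * (X * c) * M = s * (M * X * M) := by
      rw [mul_assoc, mul_assoc, hcM]
      rcases hs with rfl | rfl <;> simp [mul_assoc]
    have a2 : M * (c * W) * M = s * (M * W * M) := by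
      rw [← mul_assoc, hMc]
      rcases hs with rfl | rfl <;> simp [mul_assoc]
    rw [a1, a2]
  have hss : s * s = 1 := by rcases hs with rfl | rfl <;> simp
  have e3 : M * (Y + s * Y') * M = M * X * M + M * X * M := by
    have : M * (s * Y') * M = s * (M * Y' * M) := by
      rcases hs with rfl | rfl <;> simp [mul_assoc]
    rw [mul_add, add_mul, this, e1, e2, mul_sub, ← mul_assoc s s, ← mul_assoc s s, hss, one_mul, one_mul]
    abel
  have e4 : M * (Y + s * Y') * M = (Y + s * Y') * M + (Y + s * Y') * M := by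
    rw [← hY.eq, mul_assoc, hMM, mul_add]
  apply sub_eq_zero.1
  apply h2tf
  have : M * X * M - (Y + s * Y') * M + (M * X * M - (Y + s * Y') * M)
      = (M * X * M + M * X * M) - ((Y + s * Y') * M + (Y + s * Y') * M) := by abel
  rw [this, ← e3, ← e4, sub_self]

section Blocks

variable (β : G → 𝕋) (c₀ : G)

/-- `D g = β g - β (g c₀)`: Hecke-valued lower-right coefficient (times 2). -/
def dCoeff (g : G) : 𝕋 := β g - β (g * c₀)

/-- `A g = β g + β (g c₀)`: Hecke-valued upper-left coefficient (times 2). -/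
def aCoeff (g : G) : 𝕋 := β g + β (g * c₀)

variable {β c₀} {r : G →* E} {ε : G →* R₀} {θ : 𝕋 →+* E}

theorem rc_mul_rc (hc : c₀ * c₀ = 1) : r c₀ * r c₀ = 1 := by rw [← map_mul, hc, map_one]

theorem c_inv (hc : c₀ * c₀ = 1) : c₀⁻¹ = c₀ := inv_eq_of_mul_eq_one_left hc

/-- The relation for `g c₀`. -/
theorem rel_mul_c (hrel : ∀ g, r g + ε g • r g⁻¹ = θ (β g)) (hc : c₀ * c₀ = 1) (hεc : ε c₀ = -1)
    (g : G) : r g * r c₀ - r c₀ * (ε g • r g⁻¹) = θ (β (g * c₀)) := by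
  have h := hrel (g * c₀)
  rw [mul_inv_rev, c_inv hc, map_mul, map_mul, map_mul, hεc, mul_neg_one, neg_smul] at h
  rw [← h, mul_smul_comm]; abel

theorem commute_M (hcomm : ∀ t g, Commute (θ t) (r g)) (t : 𝕋) : Commute (θ t) (1 - r c₀) :=
  (Commute.one_right _).sub_right (hcomm t c₀)

theorem commute_P (hcomm : ∀ t g, Commute (θ t) (r g)) (t : 𝕋) : Commute (θ t) (1 + r c₀) :=
  (Commute.one_right _).add_right (hcomm t c₀)

/-- lower-right block is Hecke-valued. -/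
theorem M_block (hrel : ∀ g, r g + ε g • r g⁻¹ = θ (β g))
    (hcomm : ∀ t g, Commute (θ t) (r g)) (hc : c₀ * c₀ = 1) (hεc : ε c₀ = -1)
    (h2 : ∀ y : E, y + y = 0 → y = 0) (g : G) :
    (1 - r c₀) * r g * (1 - r c₀) = θ (dCoeff β c₀ g) * (1 - r c₀) := by
  have hcc := rc_mul_rc (r := r) hc
  have key := block_aux (M := 1 - r c₀) (c := r c₀) (X := r g) (W := ε g • r g⁻¹)
    (Y := θ (β g)) (Y' := θ (β (g * c₀))) (-1) (Or.inr rfl)
    (by rw [M_mul_c hcc, neg_one_mul]) (by rw [c_mul_M hcc, neg_one_mul]) (M_mul_M hcc) (hrel g)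
    (rel_mul_c hrel hc hεc g)
    (by rw [neg_one_mul, ← sub_eq_add_neg, ← map_sub]; exact commute_M hcomm _) h2
  rw [key, neg_one_mul, ← sub_eq_add_neg, ← map_sub, dCoeff]

/-- upper-left block is Hecke-valued. -/
theorem P_block (hrel : ∀ g, r g + ε g • r g⁻¹ = θ (β g))
    (hcomm : ∀ t g, Commute (θ t) (r g)) (hc : c₀ * c₀ = 1) (hεc : ε c₀ = -1)
    (h2 : ∀ y : E, y + y = 0 → y = 0) (g : G) :
    (1 + r c₀) * r g * (1 + r c₀) = θ (aCoeff β c₀ g) * (1 + r c₀) := by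
  have hcc := rc_mul_rc (r := r) hc
  have key := block_aux (M := 1 + r c₀) (c := r c₀) (X := r g) (W := ε g • r g⁻¹)
    (Y := θ (β g)) (Y' := θ (β (g * c₀))) 1 (Or.inl rfl)
    (by rw [P_mul_c hcc, one_mul]) (by rw [c_mul_P hcc, one_mul]) (P_mul_P hcc) (hrel g)
    (rel_mul_c hrel hc hεc g)
    (by rw [one_mul, ← map_add]; exact commute_P hcomm _) h2
  rw [key, one_mul, ← map_add, aCoeff]

end Blocks

section Main

variable {r : G →* E} {ε : G →* R₀} {θ : 𝕋 →+* E} {β : G → 𝕋} {c₀ : G}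

/-- `θ` of the Hecke-trace of `x = ∑ nᵢ gᵢ` when `r x = 0`. -/
theorem theta_sum (hrel : ∀ g, r g + ε g • r g⁻¹ = θ (β g))
    {ι : Type*} (s : Finset ι) (n : ι → ℤ) (g : ι → G)
    (hx : ∑ i ∈ s, n i • r (g i) = 0) :
    θ (∑ i ∈ s, n i • β (g i)) = ∑ i ∈ s, n i • (ε (g i) • r (g i)⁻¹) := by
  rw [map_sum]
  have : ∀ i ∈ s, θ (n i • β (g i)) = n i • r (g i) + n i • (ε (g i) • r (g i)⁻¹) := by
    intro i _
    rw [map_zsmul, ← hrel, smul_add]
  rw [Finset.sum_congr rfl this, Finset.sum_add_distrib, hx, zero_add]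

/-- key identity (K). -/
theorem theta_sum_mul (hrel : ∀ g, r g + ε g • r g⁻¹ = θ (β g))
    {ι : Type*} (s : Finset ι) (n : ι → ℤ) (g : ι → G)
    (hx : ∑ i ∈ s, n i • r (g i) = 0) (h : G) :
    θ (∑ i ∈ s, n i • β (g i * h)) = ε h • (r h⁻¹ * θ (∑ i ∈ s, n i • β (g i))) := by
  have hx' : ∑ i ∈ s, n i • r (g i * h) = 0 := by
    have : ∀ i ∈ s, n i • r (g i * h) = (n i • r (g i)) * r h := by
      intro i _
      rw [map_mul, smul_mul_assoc]
    rw [Finset.sum_congr rfl this, ← Finset.sum_mul, hx, zero_mul]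
  rw [theta_sum hrel s n (fun i => g i * h) hx', theta_sum hrel s n g hx, Finset.mul_sum,
    Finset.smul_sum]
  refine Finset.sum_congr rfl fun i _ => ?_
  rw [mul_inv_rev, map_mul, map_mul, mul_smul_comm, mul_smul_comm, smul_comm (ε h) (n i),
    mul_comm (ε (g i)) (ε h), mul_smul]

/-- (L): `θ S` kills commutators. -/
theorem theta_sum_comm (hrel : ∀ g, r g + ε g • r g⁻¹ = θ (β g))
    (hcomm : ∀ t g, Commute (θ t) (r g))
    {ι : Type*} (s : Finset ι) (n : ι → ℤ) (g : ι → G)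
    (hx : ∑ i ∈ s, n i • r (g i) = 0) (h k : G) :
    θ (∑ i ∈ s, n i • β (g i)) * (r h * r k - r k * r h) = 0 := by
  set S := ∑ i ∈ s, n i • β (g i) with hS
  have hK := theta_sum_mul hrel s n g hx h⁻¹
  rw [inv_inv, ← hS] at hK
  have hc1 := (hcomm (∑ i ∈ s, n i • β (g i * h⁻¹)) k).eq
  rw [hK, smul_mul_assoc, mul_smul_comm] at hc1
  have hc2 := congrArg (fun y => ε h • y) hc1
  simp only [smul_smul, ← map_mul, mul_inv_cancel, map_one, one_smul] at hc2
  have e1 : r h * θ S * r k = θ S * (r h * r k) := by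
    rw [← (hcomm S h).eq, mul_assoc]
  have e2 : r k * (r h * θ S) = θ S * (r k * r h) := by
    rw [← (hcomm S h).eq, ← mul_assoc, ← (hcomm S k).eq, mul_assoc]
  rw [mul_sub, ← e1, ← e2, hc2, sub_self]

/-- generic off-diagonal computation. -/
theorem offdiag_aux {P M c X Z : E} (hPc : P * c = P) (hcM : c * M = -M)
    (hZP : Commute Z P) (hL : Z * (c * X - X * c) = 0)
    (h2 : ∀ y : E, y + y = 0 → y = 0) : Z * (P * X * M) = 0 := by
  apply h2
  have e : P * (c * X - X * c) * M = P * X * M + P * X * M := by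
    have a1 : P * (c * X) * M = P * X * M := by rw [← mul_assoc, hPc]
    have a2 : P * (X * c) * M = -(P * X * M) := by
      rw [mul_assoc, mul_assoc, hcM, mul_neg, mul_neg, mul_assoc]
    rw [mul_sub, sub_mul, a1, a2, sub_neg_eq_add]
  rw [← mul_add, ← e, ← mul_assoc, ← mul_assoc, hZP.eq, mul_assoc P, hL, mul_zero, zero_mul]

theorem offdiag_aux' {P M c X Z : E} (hMc : M * c = -M) (hcP : c * P = P)
    (hZM : Commute Z M) (hL : Z * (X * c - c * X) = 0)
    (h2 : ∀ y : E, y + y = 0 → y = 0) : Z * (M * X * P) = 0 := by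
  apply h2
  have e : M * (X * c - c * X) * P = M * X * P + M * X * P := by
    have a1 : M * (X * c) * P = M * X * P := by
      rw [mul_assoc, mul_assoc, hcP, mul_assoc]
    have a2 : M * (c * X) * P = -(M * X * P) := by
      rw [← mul_assoc, hMc, neg_mul, neg_mul]
    rw [mul_sub, sub_mul, a1, a2, sub_neg_eq_add]
  rw [← mul_add, ← e, ← mul_assoc, ← mul_assoc, hZM.eq, mul_assoc M, hL, mul_zero, zero_mul]

/-- (4'): off-diagonal blocks are killed by `θ S`. -/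
theorem theta_sum_PM (hrel : ∀ g, r g + ε g • r g⁻¹ = θ (β g))
    (hcomm : ∀ t g, Commute (θ t) (r g)) (hc : c₀ * c₀ = 1)
    (h2 : ∀ y : E, y + y = 0 → y = 0)
    {ι : Type*} (s : Finset ι) (n : ι → ℤ) (g : ι → G)
    (hx : ∑ i ∈ s, n i • r (g i) = 0) (k : G) :
    θ (∑ i ∈ s, n i • β (g i)) * ((1 + r c₀) * r k * (1 - r c₀)) = 0 :=
  have hcc := rc_mul_rc (r := r) hc
  offdiag_aux (P_mul_c hcc) (c_mul_M hcc) (commute_P hcomm _)
    (theta_sum_comm hrel hcomm s n g hx c₀ k) h2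

theorem theta_sum_MP (hrel : ∀ g, r g + ε g • r g⁻¹ = θ (β g))
    (hcomm : ∀ t g, Commute (θ t) (r g)) (hc : c₀ * c₀ = 1)
    (h2 : ∀ y : E, y + y = 0 → y = 0)
    {ι : Type*} (s : Finset ι) (n : ι → ℤ) (g : ι → G)
    (hx : ∑ i ∈ s, n i • r (g i) = 0) (k : G) :
    θ (∑ i ∈ s, n i • β (g i)) * ((1 - r c₀) * r k * (1 + r c₀)) = 0 :=
  have hcc := rc_mul_rc (r := r) hc
  offdiag_aux' (M_mul_c hcc) (c_mul_P hcc) (commute_M hcomm _)
    (theta_sum_comm hrel hcomm s n g hx k c₀) h2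

theorem midblock_aux {M P X Y a b d : E} (hP : P = (1 + 1) - M)
    (hX : M * X * M = a * M) (hY : M * Y * M = b * M) (hXY : M * (X * Y) * M = d * M) :
    M * X * P * Y * M = (d + d - a * b) * M := by
  have e1 : M * X * (1 + 1) * Y * M = M * (X * Y) * M + M * (X * Y) * M := by
    simp only [mul_add, add_mul, mul_one, mul_assoc]
  have e2 : M * X * M * Y * M = a * b * M := by
    rw [hX, mul_assoc (a * M), mul_assoc a, mul_assoc a, ← mul_assoc M Y, hY, ← mul_assoc]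
  rw [hP, mul_sub, sub_mul, sub_mul, e1, e2, hXY, sub_mul, add_mul]

theorem kill_aux {Z M P X Y ξ : E} (hξ : M * X * P * Y * M = ξ * M) (hZM : Commute Z M)
    (hZX : Commute Z X) (hZ : Z * (P * Y * M) = 0) : Z * ξ * M = 0 := by
  rw [mul_assoc, ← hξ]
  have : Z * (M * X * P * Y * M) = M * X * (Z * (P * Y * M)) := by
    simp only [mul_assoc]
    rw [hZM.left_comm, hZX.left_comm]
  rw [this, hZ, mul_zero]

theorem final_aux {Z ξ ξ' M P : E} (hPM : P + M = 1 + 1) (h1 : Z * ξ * M = 0)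
    (h1' : Z * ξ' * P = 0) (hξZ : Commute ξ Z) (hξ'M : Commute ξ' M)
    (h2 : ∀ y : E, y + y = 0 → y = 0) : Z * ξ * ξ' = 0 := by
  apply h2
  have e : Z * ξ * ξ' + Z * ξ * ξ' = Z * ξ * ξ' * (P + M) := by
    rw [hPM, mul_add, mul_one]
  have a1 : Z * ξ * ξ' * P = ξ * (Z * ξ' * P) := by
    rw [← hξZ.eq]; simp only [mul_assoc]
  have a2 : Z * ξ * ξ' * M = Z * ξ * M * ξ' := by
    rw [mul_assoc (Z * ξ), hξ'M.eq, ← mul_assoc]
  rw [e, mul_add, a1, a2, h1, h1', mul_zero, zero_mul, add_zero]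

variable (β c₀) in
/-- Hecke element with `π ξ = 4 c(h) b(g)`. -/
def xiM (h g : G) : 𝕋 :=
  (dCoeff β c₀ (h * g) + dCoeff β c₀ (h * g)) - dCoeff β c₀ h * dCoeff β c₀ g

variable (β c₀) in
/-- Hecke element with `π ξ' = 4 b(h) c(g)`. -/
def xiP (h g : G) : 𝕋 :=
  (aCoeff β c₀ (h * g) + aCoeff β c₀ (h * g)) - aCoeff β c₀ h * aCoeff β c₀ g

theorem M_mid (hrel : ∀ g, r g + ε g • r g⁻¹ = θ (β g))
    (hcomm : ∀ t g, Commute (θ t) (r g)) (hc : c₀ * c₀ = 1) (hεc : ε c₀ = -1)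
    (h2 : ∀ y : E, y + y = 0 → y = 0) (h g : G) :
    (1 - r c₀) * r h * (1 + r c₀) * r g * (1 - r c₀) = θ (xiM β c₀ h g) * (1 - r c₀) := by
  have hXY : (1 - r c₀) * (r h * r g) * (1 - r c₀) = θ (dCoeff β c₀ (h * g)) * (1 - r c₀) := by
    have := M_block hrel hcomm hc hεc h2 (h * g)
    rwa [map_mul] at this
  rw [midblock_aux (a := θ (dCoeff β c₀ h)) (b := θ (dCoeff β c₀ g))
    (d := θ (dCoeff β c₀ (h * g))) (by abel) (M_block hrel hcomm hc hεc h2 h)
    (M_block hrel hcomm hc hεc h2 g) hXY, xiM, map_sub, map_add, map_mul]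

theorem P_mid (hrel : ∀ g, r g + ε g • r g⁻¹ = θ (β g))
    (hcomm : ∀ t g, Commute (θ t) (r g)) (hc : c₀ * c₀ = 1) (hεc : ε c₀ = -1)
    (h2 : ∀ y : E, y + y = 0 → y = 0) (h g : G) :
    (1 + r c₀) * r h * (1 - r c₀) * r g * (1 + r c₀) = θ (xiP β c₀ h g) * (1 + r c₀) := by
  have hXY : (1 + r c₀) * (r h * r g) * (1 + r c₀) = θ (aCoeff β c₀ (h * g)) * (1 + r c₀) := by
    have := P_block hrel hcomm hc hεc h2 (h * g)
    rwa [map_mul] at this
  rw [midblock_aux (a := θ (aCoeff β c₀ h)) (b := θ (aCoeff β c₀ g))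
    (d := θ (aCoeff β c₀ (h * g))) (by abel) (P_block hrel hcomm hc hεc h2 h)
    (P_block hrel hcomm hc hεc h2 g) hXY, xiP, map_sub, map_add, map_mul]

/-- **The Hecke trace of a combination killing the module is killed by `θ` after multiplication
by the two off-diagonal products.** -/
theorem theta_sum_mul_xi (hrel : ∀ g, r g + ε g • r g⁻¹ = θ (β g))
    (hcomm : ∀ t g, Commute (θ t) (r g)) (hc : c₀ * c₀ = 1) (hεc : ε c₀ = -1)
    (h2 : ∀ y : E, y + y = 0 → y = 0)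
    {ι : Type*} (s : Finset ι) (n : ι → ℤ) (g : ι → G)
    (hx : ∑ i ∈ s, n i • r (g i) = 0) (h₀ g₀ h₁ g₁ : G) :
    θ ((∑ i ∈ s, n i • β (g i)) * xiM β c₀ h₀ g₀ * xiP β c₀ h₁ g₁) = 0 := by
  set S := ∑ i ∈ s, n i • β (g i) with hS
  have k1 : θ S * θ (xiM β c₀ h₀ g₀) * (1 - r c₀) = 0 :=
    kill_aux (M_mid hrel hcomm hc hεc h2 h₀ g₀) (commute_M hcomm S) (hcomm S h₀)
      (theta_sum_PM hrel hcomm hc h2 s n g hx g₀)
  have k2 : θ S * θ (xiP β c₀ h₁ g₁) * (1 + r c₀) = 0 :=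
    kill_aux (P_mid hrel hcomm hc hεc h2 h₁ g₁) (commute_P hcomm S) (hcomm S h₁)
      (theta_sum_MP hrel hcomm hc h2 s n g hx g₁)
  rw [map_mul, map_mul]
  refine final_aux (M := 1 - r c₀) (P := 1 + r c₀) (by abel) k1 k2 ?_ (commute_M hcomm _) h2
  rw [Commute, SemiconjBy, ← map_mul, ← map_mul, mul_comm]

/-- **Abstract transfer lemma.** If `x = ∑ nᵢ gᵢ` acts as zero through `r`, then the
corresponding combination of traces `∑ nᵢ t(gᵢ)` lies in `J`. -/
theorem sum_trace_mem (hrel : ∀ g, r g + ε g • r g⁻¹ = θ (β g))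
    (hcomm : ∀ t g, Commute (θ t) (r g)) (hc : c₀ * c₀ = 1) (hεc : ε c₀ = -1)
    (h2 : ∀ y : E, y + y = 0 → y = 0)
    (π : 𝕋 →+* T) (J : Ideal T) (t : G → T)
    (hlink : ∀ g, t g - π (β g) ∈ J)
    (hfaith : ∀ s : 𝕋, θ s = 0 → π s ∈ J)
    (h₀ g₀ h₁ g₁ : G) (u u' : T) (hu : IsUnit u) (hu' : IsUnit u')
    (hξ : ((t (h₀ * g₀) - t (h₀ * g₀ * c₀)) + (t (h₀ * g₀) - t (h₀ * g₀ * c₀))
      - (t h₀ - t (h₀ * c₀)) * (t g₀ - t (g₀ * c₀))) - u ∈ J)
    (hξ' : ((t (h₁ * g₁) + t (h₁ * g₁ * c₀)) + (t (h₁ * g₁) + t (h₁ * g₁ * c₀))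
      - (t h₁ + t (h₁ * c₀)) * (t g₁ + t (g₁ * c₀))) - u' ∈ J)
    {ι : Type*} (s : Finset ι) (n : ι → ℤ) (g : ι → G)
    (hx : ∑ i ∈ s, n i • r (g i) = 0) :
    ∑ i ∈ s, n i • t (g i) ∈ J := by
  have hq : ∀ k, Ideal.Quotient.mk J (π (β k)) = Ideal.Quotient.mk J (t k) := fun k =>
    ((Ideal.Quotient.eq).2 (hlink k)).symm
  have key := hfaith _ (theta_sum_mul_xi hrel hcomm hc hεc h2 s n g hx h₀ g₀ h₁ g₁)
  rw [← Ideal.Quotient.eq_zero_iff_mem] at key ⊢
  have e1 : Ideal.Quotient.mk J (π (xiM β c₀ h₀ g₀)) = Ideal.Quotient.mk J u := by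
    rw [← (Ideal.Quotient.eq).2 hξ]
    simp only [xiM, dCoeff, map_sub, map_add, map_mul, hq, mul_assoc]
  have e2 : Ideal.Quotient.mk J (π (xiP β c₀ h₁ g₁)) = Ideal.Quotient.mk J u' := by
    rw [← (Ideal.Quotient.eq).2 hξ']
    simp only [xiP, aCoeff, map_sub, map_add, map_mul, hq, mul_assoc]
  have e3 : Ideal.Quotient.mk J (π (∑ i ∈ s, n i • β (g i)))
      = Ideal.Quotient.mk J (∑ i ∈ s, n i • t (g i)) := by
    simp only [map_sum, map_zsmul, hq]
  rw [map_mul, map_mul, map_mul, map_mul, e1, e2, e3] at key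
  have hu1 : IsUnit (Ideal.Quotient.mk J u) := hu.map _
  have hu2 : IsUnit (Ideal.Quotient.mk J u') := hu'.map _
  exact (hu1.mul_left_eq_zero).1 ((hu2.mul_left_eq_zero).1 key)

end Main

end Fermat.Agent.S32.Transfer
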