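import Fermat.Agent.S31.Core
import Fermat.Agent.S32.Transfer
import Fermat.Agent.S32.RhoSide

/-!
# PROJECT F (S32), transfer lemma in the frame of `S31/Core`

`Λ` a Hecke-Galois module (`S31.Core.HeckeModule`), `ρ : GaloisRepAdic T` residually absolutely
irreducible with Frobenius characteristic polynomials `X² - π(T_ℓ) X + ℓ`, `c₀` an involution with
`ε c₀ = -1` and `det ρ(c₀) = -1`, `2` invertible.  Then for every `n` there is `k` such that every
integral combination `x = ∑ mᵢ gᵢ` of Galois elements with `r(x) Λ ⊆ I₀ᵏ Λ` satisfies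
`ρ(x) V ⊆ 𝔪ⁿ V` (`rho_sum_mem`).
-/

set_option autoImplicit false
set_option linter.unusedSectionVars false

namespace Fermat.Agent.S32.TransferCore

open Polynomial IsLocalRing
open Fermat.Agent.S31.Core
open Fermat.Agent.S30.Algebra.DetGalois (Density)

/-! ### Reduction of endomorphisms modulo `I Λ` -/

section Red

variable {R₀ : Type*} [CommRing R₀] {Λ : Type*} [AddCommGroup Λ] [Module R₀ Λ]

/-- Reduction `End Λ → End (Λ / I Λ)`. -/
noncomputable def redEnd (I : Ideal R₀) :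
    Module.End R₀ Λ →ₐ[R₀] Module.End R₀ (Λ ⧸ (I • (⊤ : Submodule R₀ Λ))) where
  toFun f := Submodule.mapQ _ _ f (fun _ hw => map_mem_smul_top I f hw)
  map_one' := by
    apply Submodule.linearMap_qext
    ext v
    simp
  map_mul' f g := by
    apply Submodule.linearMap_qext
    ext v
    simp
  map_zero' := by
    apply Submodule.linearMap_qext
    ext v
    simp
  map_add' f g := by
    apply Submodule.linearMap_qext
    ext v
    simp
  commutes' a := by
    apply Submodule.linearMap_qext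
    ext v
    simp [Module.algebraMap_end_apply]

@[simp]
theorem redEnd_mk (I : Ideal R₀) (f : Module.End R₀ Λ) (v : Λ) :
    redEnd I f (Submodule.Quotient.mk v) = Submodule.Quotient.mk (f v) := rfl

theorem redEnd_eq_zero_iff (I : Ideal R₀) (f : Module.End R₀ Λ) :
    redEnd I f = 0 ↔ f ∈ smallEnd (V := Λ) I := by
  constructor
  · intro h v
    have := LinearMap.congr_fun h (Submodule.Quotient.mk v)
    rw [redEnd_mk, LinearMap.zero_apply, Submodule.Quotient.mk_eq_zero] at this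
    exact this
  · intro h
    apply Submodule.linearMap_qext
    ext v
    simp only [LinearMap.comp_apply, Submodule.mkQ_apply, redEnd_mk, LinearMap.zero_apply]
    exact (Submodule.Quotient.mk_eq_zero _).2 (h v)

end Red

/-! ### The transfer lemma -/

section Main

open Fermat.Agent.S32.Transfer Fermat.Agent.S32.RhoSide

variable {T : Type} [CommRing T] [IsLocalRing T]
variable {𝕋 : Type*} [CommRing 𝕋]
variable {R₀ : Type*} [CommRing R₀] {Λ : Type*} [AddCommGroup Λ] [Module R₀ Λ]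
variable {Sg : Finset ℕ} {I₀ : Ideal R₀} {Tl : ℕ → 𝕋} {r : GQ →* Module.End R₀ Λ}
  {ε : GQ →* R₀} {θ : 𝕋 →+* Module.End R₀ Λ}

/-- The exact Eichler-Shimura relation on `Λ / I₀ᵏ Λ` from the approximate one. -/
theorem red_rel {k : ℕ} {g : GQ} {b : 𝕋}
    (h : r g * r g - θ b * r g + ε g • (1 : Module.End R₀ Λ) ∈ smallEnd (V := Λ) (I₀ ^ k)) :
    redEnd (I₀ ^ k) (r g) + ε g • redEnd (I₀ ^ k) (r g⁻¹) = redEnd (I₀ ^ k) (θ b) := by
  have h0 := (redEnd_eq_zero_iff (I₀ ^ k) _).2 h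
  rw [map_add, map_sub, map_mul, map_mul, map_smul, map_one] at h0
  have hinv : redEnd (I₀ ^ k) (r g) * redEnd (I₀ ^ k) (r g⁻¹) = 1 := by
    rw [← map_mul, ← map_mul, mul_inv_cancel, map_one, map_one]
  have h1 := congrArg (fun y => y * redEnd (I₀ ^ k) (r g⁻¹)) h0
  simp only [add_mul, sub_mul, zero_mul, mul_assoc, hinv, mul_one, smul_mul_assoc, one_mul] at h1
  rw [← sub_eq_zero, ← h1]
  abel

/-- **Transfer lemma (S32-1).** -/
theorem rho_sum_mem (hM : HeckeModule Sg I₀ Tl r ε θ)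
    (hcommAll : ∀ (t : 𝕋) (g : GQ), Commute (θ t) (r g))
    (ρ : GaloisRepAdic T) (habs : ρ.residual.IsAbsolutelyIrreducible) (π : 𝕋 →+* T)
    (hcp : FrobCharpolyVia ρ Sg Tl π) (hdens : Density Sg)
    (hinj : ∀ n : ℕ, ∃ n' : ℕ, ∀ t : 𝕋,
      (∀ v : Λ, θ t v ∈ (I₀ ^ n') • (⊤ : Submodule R₀ Λ)) → π t ∈ maximalIdeal T ^ n)
    (h2R : IsUnit (2 : R₀)) (h2T : IsUnit (2 : T))
    (c₀ : GQ) (hc : c₀ * c₀ = 1) (hεc : ε c₀ = -1) (hdetc : LinearMap.det (ρ.ρ c₀) = -1)
    (n : ℕ) :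
    ∃ k : ℕ, ∀ {ι : Type} (s : Finset ι) (m : ι → ℤ) (g : ι → GQ),
      (∀ v : Λ, (∑ i ∈ s, m i • r (g i)) v ∈ (I₀ ^ k) • (⊤ : Submodule R₀ Λ)) →
      ∀ v : ρ.V, (∑ i ∈ s, m i • ρ.ρ (g i)) v ∈ (maximalIdeal T ^ n) • (⊤ : Submodule T ρ.V) := by
  classical
  obtain ⟨k, hk⟩ := hinj n
  refine ⟨k, ?_⟩
  intro ι s m g hx
  -- approximants
  have happ := fun g : GQ => exists_approx hM ρ π hcp hdens g (max k n)
  choose β hβ1 hβ2 using happ
  set J : Ideal T := maximalIdeal T ^ n with hJ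
  -- the reduced frame
  let rk : GQ →* Module.End R₀ (Λ ⧸ ((I₀ ^ k) • (⊤ : Submodule R₀ Λ))) :=
    ((redEnd (I₀ ^ k) : Module.End R₀ Λ →ₐ[R₀] _) : Module.End R₀ Λ →* _).comp r
  let θk : 𝕋 →+* Module.End R₀ (Λ ⧸ ((I₀ ^ k) • (⊤ : Submodule R₀ Λ))) :=
    ((redEnd (I₀ ^ k) : Module.End R₀ Λ →ₐ[R₀] _) : Module.End R₀ Λ →+* _).comp θ
  have hrk : ∀ g, rk g = redEnd (I₀ ^ k) (r g) := fun _ => rfl
  have hθk : ∀ t, θk t = redEnd (I₀ ^ k) (θ t) := fun _ => rfl
  have hrel : ∀ g, rk g + ε g • rk g⁻¹ = θk (β g) := by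
    intro g
    rw [hrk, hrk, hθk]
    exact red_rel (smallEnd_mono (Ideal.pow_le_pow_right (le_max_left k n)) (hβ1 g))
  have hcomm : ∀ t g, Commute (θk t) (rk g) := by
    intro t g
    rw [hrk, hθk]
    exact (hcommAll t g).map (redEnd (I₀ ^ k))
  have h2 : ∀ y : Module.End R₀ (Λ ⧸ ((I₀ ^ k) • (⊤ : Submodule R₀ Λ))), y + y = 0 → y = 0 := by
    intro y hy
    obtain ⟨u, hu⟩ := h2R
    have : (2 : R₀) • y = 0 := by rw [two_smul, hy]
    have h3 := congrArg (fun z => (↑u⁻¹ : R₀) • z) this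
    simp only [smul_smul, smul_zero] at h3
    rwa [← hu, Units.inv_mul, one_smul] at h3
  have hlink : ∀ g, LinearMap.trace T ρ.V (ρ.ρ g) - π (β g) ∈ J := fun g =>
    Ideal.pow_le_pow_right (le_max_right k n) (hβ2 g)
  have hfaith : ∀ t : 𝕋, θk t = 0 → π t ∈ J := by
    intro t ht
    rw [hθk, redEnd_eq_zero_iff] at ht
    exact hk t ht
  -- the two unit values
  have hspan := Fermat.Agent.S53.Centralizer.span_range_eq_top ρ habs
  have hCC : ρ.ρ c₀ * ρ.ρ c₀ = 1 := by rw [← map_mul, hc, map_one]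
  obtain ⟨_, ⟨h₀, rfl⟩, _, ⟨g₀, rfl⟩, hu⟩ :=
    exists_isUnit_qM ρ.finrank_eq h2T (ρ.ρ c₀) hCC hdetc (Set.range ρ.ρ) hspan
  obtain ⟨_, ⟨h₁, rfl⟩, _, ⟨g₁, rfl⟩, hu'⟩ :=
    exists_isUnit_qP ρ.finrank_eq h2T (ρ.ρ c₀) hCC hdetc (Set.range ρ.ρ) hspan
  -- traces of `x h`
  have htr : ∀ h : GQ, ∑ i ∈ s, m i • LinearMap.trace T ρ.V (ρ.ρ (g i * h)) ∈ J := by
    intro h
    refine sum_trace_mem (r := rk) (ε := ε) (θ := θk) (β := β) (c₀ := c₀) hrel hcomm hc hεc h2 π J
      (fun g => LinearMap.trace T ρ.V (ρ.ρ g)) hlink hfaith h₀ g₀ h₁ g₁ _ _ hu hu' ?_ ?_ s m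
      (fun i => g i * h) ?_
    · simp only [map_mul, qM, sub_self, Ideal.zero_mem]
    · simp only [map_mul, qP, sub_self, Ideal.zero_mem]
    · have hx0 : ∑ i ∈ s, m i • rk (g i) = 0 := by
        have := (redEnd_eq_zero_iff (I₀ ^ k) _).2 hx
        rw [map_sum] at this
        simpa only [map_zsmul, hrk] using this
      have : ∀ i ∈ s, m i • rk (g i * h) = (m i • rk (g i)) * rk h := by
        intro i _
        rw [map_mul, smul_mul_assoc]
      rw [Finset.sum_congr rfl this, ← Finset.sum_mul, hx0, zero_mul]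
  -- conclusion
  set X : Module.End T ρ.V := ∑ i ∈ s, m i • ρ.ρ (g i) with hX
  have hXh : ∀ h : GQ, LinearMap.trace T ρ.V (X * ρ.ρ h) ∈ J := by
    intro h
    have : X * ρ.ρ h = ∑ i ∈ s, m i • ρ.ρ (g i * h) := by
      rw [hX, Finset.sum_mul]
      refine Finset.sum_congr rfl fun i _ => ?_
      rw [map_mul, smul_mul_assoc]
    rw [this, map_sum]
    simpa only [map_zsmul] using htr h
  have hall : ∀ Y : Module.End T ρ.V, LinearMap.trace T ρ.V (X * Y) ∈ J := by
    intro Y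
    have hY : Y ∈ Submodule.span T (Set.range ρ.ρ) := hspan ▸ Submodule.mem_top
    induction hY using Submodule.span_induction with
    | mem y hy =>
      obtain ⟨h, rfl⟩ := hy
      exact hXh h
    | zero => rw [mul_zero, map_zero]; exact J.zero_mem
    | add y z _ _ hy hz => rw [mul_add, map_add]; exact J.add_mem hy hz
    | smul a y _ hy => rw [mul_smul_comm, map_smul]; exact J.mul_mem_left a hy
  exact forall_mem_smul_top_of_trace_mul_mem J X hall

end Main

end Fermat.Agent.S32.TransferCore
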