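import Fermat.Prelude.Def_CuspForm_HeckeGaloisRepDatum
import Fermat.Prelude.Def_GaloisRep_ComplexConjugation
import Fermat.Agent.S35.DetCyc
import Fermat.Agent.S58.Compare
import Fermat.Agent.S32.TransferCore
import Fermat.Agent.S32.TateHecke

/-!
# PROJECT F (S32): the transfer lemma for a Hecke-Galois datum

`exists_level` : for a `HeckeGaloisRepDatum` `H` (`p` odd) and every `n` there is `k` such that
every integral combination `x = ∑ mᵢ gᵢ` of Galois elements which maps `T_p J₀(N)` into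
`p ^ k T_p J₀(N)` maps `H.ρ.V` into `𝔪ⁿ V`.
-/

set_option autoImplicit false
set_option linter.unusedSectionVars false
set_option linter.style.haveILetI false

noncomputable section

namespace Fermat.Agent.S32.Level

open Polynomial IsLocalRing CuspForm ModularCurve
open Fermat.Agent.S31.Core
open Fermat.Agent.S30.Algebra
open Fermat.Agent.S30.Padic.TateModule

/-- `2` is a unit in a local ring whose residue characteristic is odd. -/
theorem isUnit_two_of_odd {R : Type*} [CommRing R] [IsLocalRing R] {p : ℕ} (hodd : Odd p)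
    (hp : (p : R) ∈ maximalIdeal R) : IsUnit (2 : R) := by
  by_contra h
  have h2 : (2 : R) ∈ maximalIdeal R := (mem_maximalIdeal _).2 (mem_nonunits_iff.2 h)
  obtain ⟨m, rfl⟩ := hodd
  have h1 : (1 : R) = ((2 * m + 1 : ℕ) : R) - 2 * (m : R) := by
    push_cast
    ring
  have : (1 : R) ∈ maximalIdeal R := by
    rw [h1]
    exact Ideal.sub_mem _ hp (Ideal.mul_mem_right _ _ h2)
  exact (Ideal.ne_top_iff_one _).1 (maximalIdeal.isMaximal R).ne_top this

/-- A finite quotient of a local ring is killed by a power of the maximal ideal. -/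
theorem exists_pow_le_of_finite_quotient {T : Type*} [CommRing T] [IsLocalRing T] (I : Ideal T)
    [Finite (T ⧸ I)] : ∃ n : ℕ, maximalIdeal T ^ n ≤ I := by
  have hle : (maximalIdeal T).map (Ideal.Quotient.mk I) ≤ Ideal.jacobson (⊥ : Ideal (T ⧸ I)) := by
    rw [Ideal.jacobson]
    refine le_sInf ?_
    rintro M ⟨-, hM⟩
    have hc : (M.comap (Ideal.Quotient.mk I)).IsMaximal :=
      Ideal.comap_isMaximal_of_surjective _ Ideal.Quotient.mk_surjective
    rw [Ideal.map_le_iff_le_comap, ← IsLocalRing.eq_maximalIdeal hc]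
  obtain ⟨n, hn⟩ := IsArtinianRing.isNilpotent_jacobson_bot (R := T ⧸ I)
  refine ⟨n, fun x hx => ?_⟩
  have h1 : Ideal.Quotient.mk I x ∈ ((maximalIdeal T).map (Ideal.Quotient.mk I)) ^ n := by
    rw [← Ideal.map_pow]
    exact Ideal.mem_map_of_mem _ hx
  have h2 := Ideal.pow_right_mono hle n h1
  rw [hn, Ideal.zero_eq_bot, Ideal.mem_bot, Ideal.Quotient.eq_zero_iff_mem] at h2
  exact h2

section Datum

variable {p : ℕ} [Fact p.Prime] {N : ℕ} [NeZero N] {S : Finset ℕ}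
  {𝒪 : Type} [CommRing 𝒪] [IsDomain 𝒪] [IsDiscreteValuationRing 𝒪]
  [IsAdicComplete (IsLocalRing.maximalIdeal 𝒪) 𝒪]
  {θ : CuspForm.heckeAlgebra N 2 (↑S : Set ℕ) →+* IsLocalRing.ResidueField 𝒪}
  {T : Type} [CommRing T] [IsLocalRing T] [IsNoetherianRing T]
  [IsAdicComplete (IsLocalRing.maximalIdeal T) T] [Algebra 𝒪 T] [IsLocalHom (algebraMap 𝒪 T)]
  [Module.Finite 𝒪 T] [Module.Free 𝒪 T]

theorem natCast_mem_maximalIdeal (hp𝒪 : (p : 𝒪) ∈ IsLocalRing.maximalIdeal 𝒪) :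
    (p : T) ∈ maximalIdeal T := by
  rw [mem_maximalIdeal, mem_nonunits_iff]
  intro hu
  have h1 : IsUnit (algebraMap 𝒪 T (p : 𝒪)) := by rwa [map_natCast]
  have h2 : IsUnit (p : 𝒪) := (isUnit_map_iff (algebraMap 𝒪 T) _).1 h1
  exact (mem_nonunits_iff.1 ((mem_maximalIdeal _).1 hp𝒪)) h2

/-- **Transfer for a Hecke-Galois datum.** -/
theorem exists_level (hp2 : p ≠ 2) (hp𝒪 : (p : 𝒪) ∈ IsLocalRing.maximalIdeal 𝒪)
    (hpS : p ∈ S) (hNS : ∀ q : ℕ, q.Prime → q ∣ N → q ∈ S)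
    (H : CuspForm.HeckeGaloisRepDatum N (↑S : Set ℕ) 𝒪 θ T) (n : ℕ) :
    ∃ k : ℕ, ∀ {ι : Type} (s : Finset ι) (m : ι → ℤ) (g : ι → GQ),
      (∀ v : Tp p (JZero N),
        (∑ i ∈ s, m i • Tp.galoisHom (p := p) (J := JZero N) GQ (g i)) v ∈
          (Ideal.span {(p : ℤ_[p])} ^ k) • (⊤ : Submodule ℤ_[p] (Tp p (JZero N)))) →
      ∀ v : H.ρ.V, (∑ i ∈ s, m i • H.ρ.ρ (g i)) v ∈
        (maximalIdeal T ^ n) • (⊤ : Submodule T H.ρ.V) := by
  have hp : p.Prime := Fact.out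
  have hodd : Odd p := hp.odd_of_ne_two hp2
  obtain ⟨θΛ, hM, hcommAll, hinj⟩ := Fermat.Agent.S32.TateHecke.hasTheta p N S hpS hNS
  have hnotdvd : ∀ ℓ : ℕ, ℓ.Prime → ℓ ∉ S → ¬ ℓ ∣ N := fun ℓ hℓ hℓS h => hℓS (hNS ℓ hℓ h)
  have hcoe : ∀ ℓ : ℕ, ℓ ∉ S → ℓ ∉ (↑S : Set ℕ) := fun ℓ h => by rwa [Finset.mem_coe]
  have hpT : (p : T) ∈ maximalIdeal T := natCast_mem_maximalIdeal hp𝒪
  have hpZ : (p : ℤ_[p]) ∈ maximalIdeal ℤ_[p] := by
    rw [PadicInt.maximalIdeal_eq_span_p]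
    exact Ideal.subset_span (Set.mem_singleton _)
  have hcp : FrobCharpolyVia H.ρ S (Fermat.Agent.S31.Assembly.Tl N S) H.π := by
    intro ℓ hℓ hℓS A hA τ hτ
    rw [Fermat.Agent.S31.Assembly.Tl_eq hℓ (hnotdvd ℓ hℓ hℓS) (hcoe ℓ hℓS)]
    exact H.charpoly_frob ℓ hℓ (hnotdvd ℓ hℓ hℓS) (hcoe ℓ hℓS) A hA τ hτ
  have hc1 : complexConjugation ≠ 1 := Fermat.Agent.S58.Compare.complexConjugation_ne_one
  have hcyc := Fermat.Agent.S58.Compare.cyc_involution p hp2 complexConjugation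
    complexConjugation_mul_self hc1
  have hεc : eps p complexConjugation = -1 := by
    rw [eps, Cyclotomic.cycChar_apply, hcyc]
    rfl
  obtain ⟨ι⟩ := Cyclotomic.exists_ringHom p (maximalIdeal T) hpT
  have hdetc : LinearMap.det (H.ρ.ρ complexConjugation) = -1 := by
    rw [Fermat.Agent.S35.DetCyc.det_eq_cycChar_of_frobCharpoly p
      Fermat.Agent.S35.DetCyc.separated hpT ι S hpS
      (fun ℓ => H.π (Fermat.Agent.S31.Assembly.Tl N S ℓ)) H.ρ hcp complexConjugation,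
      Cyclotomic.cycChar_apply, hcyc, map_neg, map_one]
  exact Fermat.Agent.S32.TransferCore.rho_sum_mem hM hcommAll H.ρ H.residual_absIrr H.π hcp
    (fun L _ s => Fermat.Agent.S30.Density.Bridge.frobenius_density_final L s S)
    (hinj_of_span p H.π hpT hinj) (isUnit_two_of_odd hodd hpZ) (isUnit_two_of_odd hodd hpT)
    complexConjugation complexConjugation_mul_self hεc hdetc n

end Datum

end Fermat.Agent.S32.Level

end
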