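import Fermat.Agent.S32.HopfClosureZl
import Fermat.Agent.S19.BackEnd

/-!
# S32 (W12): bridge between the two function-level Hopf-order predicates

`Fermat.Agent.S19.BackEnd.IsHopfOrderFn` (output contract of the S19 back end, frame
`[Group Γ] [MulSemiringAction Γ K]`, with a `neg` field) and
`Fermat.Agent.S32.HopfClosure.IsHopfOrder` (frame `κ : Γ → K →+* K`, no `neg` field) are
equivalent for finite `T`.
-/

set_option autoImplicit false

namespace Fermat.Agent.S32.BridgeFn

open Fermat.Agent.S32.HopfClosure Fermat.Agent.S19.BackEnd Fermat.Agent.S19.Artin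

variable {R K Γ T : Type*} [CommRing R] [Field K] [Algebra R K] [Group Γ]
  [MulSemiringAction Γ K] [AddCommGroup T]

/-- The ring endomorphisms of a `MulSemiringAction`. -/
def kappaOf (Γ K : Type*) [Group Γ] [Field K] [MulSemiringAction Γ K] : Γ → K →+* K :=
  fun τ => MulSemiringAction.toRingHom Γ K τ

@[simp] theorem kappaOf_apply (τ : Γ) (x : K) : kappaOf Γ K τ x = τ • x := rfl

theorem isHopfOrder_of_fn {ρ : Γ → T → T} {H : Subalgebra R (T → K)}
    (h : IsHopfOrderFn ρ H) : IsHopfOrder (kappaOf Γ K) ρ H where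
  fg := h.fg
  equiv := fun f hf τ t => h.equiv f hf τ t
  sep := h.sep
  comul := fun f hf => by
    obtain ⟨n, a, b, ha, hb, hab⟩ := h.comul f hf
    exact ⟨Fin n, inferInstance, a, b, ha, hb, hab⟩

theorem fn_of_isHopfOrder [Finite T] {ρ : Γ → T → T} {H : Subalgebra R (T → K)}
    (h : IsHopfOrder (kappaOf Γ K) ρ H) : IsHopfOrderFn ρ H where
  fg := h.fg
  equiv := fun f hf τ t => h.equiv f hf τ t
  sep := h.sep
  comul := fun f hf => by
    obtain ⟨n, a, b, hab⟩ := (h.comul f hf).exists_fin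
    exact ⟨n, fun i => a i, fun i => b i, fun i => (a i).2, fun i => (b i).2, hab⟩
  neg := h.neg_mem

theorem isHopfOrderFn_iff [Finite T] {ρ : Γ → T → T} {H : Subalgebra R (T → K)} :
    IsHopfOrderFn ρ H ↔ IsHopfOrder (kappaOf Γ K) ρ H :=
  ⟨isHopfOrder_of_fn, fn_of_isHopfOrder⟩

section Zl

open GaloisRep Fermat.Agent.S32.HopfClosureZl

variable {ℓ : ℕ} {T' : Type*} [AddCommGroup T']
  {ρ : (AlgebraicClosure ℚ ≃ₐ[ℚ] AlgebraicClosure ℚ) → T' → T'}
  {H : Subalgebra (ratLocalizedAt ℓ) (T' → AlgebraicClosure ℚ)}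

/-- The S19 back-end contract gives a Hopf order in the sense of `HopfClosureZl`. -/
theorem isHopfOrderZl_of_fn (h : IsHopfOrderFn ρ H) : IsHopfOrderZl ℓ ρ H :=
  isHopfOrder_of_fn h

/-- ... and conversely, for finite groups. -/
theorem fn_of_isHopfOrderZl [Finite T'] (h : IsHopfOrderZl ℓ ρ H) : IsHopfOrderFn ρ H :=
  fn_of_isHopfOrder h

end Zl

end Fermat.Agent.S32.BridgeFn
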