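import Fermat.Agent.S19.Final
import Fermat.Agent.S32.BridgeFn
import Fermat.Agent.S32.LevelActs

/-!
# S32 (W12): the adapter from the S19 export to the `hord` input of the S32 final assembly

The S19 chain exports, for `J₀(N)[pᵏ]` as the carrier `TorsionX0.T N (p ^ k)` with the action
`TorsionX0.galAct`, a function-level Hopf order in the sense of `S19/BackEnd.IsHopfOrderFn`.
The S32 final assembly consumes, for every `k`, a Hopf order in the sense of
`HopfClosureZl.IsHopfOrderZl` for the action `LevelActs.torsAct (p ^ k)` on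
`Submodule.torsionBy ℤ (JZero N) (p ^ k)`.  The carriers and the two actions agree
definitionally; the predicates are bridged by `BridgeFn.isHopfOrderZl_of_fn`.

* `hord_of_fn` : from one S19 function-level order (the shape of
  `S19/CloseX0.exists_isHopfOrderFn_of_chartAPI`);
* `hord_of_forall_wOrder` : from `W A`-orders at all `(A, σ)` (the hypothesis of
  `S19/Final.exists_isHopfOrderFn_of_forall_wOrder`).
-/

set_option autoImplicit false

noncomputable section

namespace Fermat.Agent.S32.OrdX0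

open ModularCurve GaloisRep Fermat.Agent.S19.TorsionX0 Fermat.Agent.S19.BackEnd
open Fermat.Agent.S18.C.SmallDVR Fermat.Agent.S19.HopfOrder
open Fermat.Agent.S32.HopfClosureZl Fermat.Agent.S32.LevelActs

local notation "Qbar" => AlgebraicClosure ℚ
local notation "GQ" => (AlgebraicClosure ℚ ≃ₐ[ℚ] AlgebraicClosure ℚ)

variable {N : ℕ} [NeZero N] {p : ℕ} {k : ℕ}

/-- the S32 action is the S19 action -/
theorem torsAct_eq_galAct (σ : GQ) (t : ↥(Submodule.torsionBy ℤ (JZero N) ((p : ℤ) ^ k))) :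
    torsAct (J := JZero N) ((p : ℤ) ^ k) σ t = galAct (N := N) (m := (p : ℤ) ^ k) σ t := rfl

/-- **the `hord` input of the S32 final assembly from one S19 function-level Hopf order** -/
theorem hord_of_fn
    (h : ∃ H : Subalgebra (Zl p) (↥(T N ((p : ℤ) ^ k)) → Qbar),
      IsHopfOrderFn (fun τ => ⇑(galAct (N := N) (m := (p : ℤ) ^ k) τ)) H) :
    ∃ H₀ : Subalgebra (ratLocalizedAt p)
        (↥(Submodule.torsionBy ℤ (JZero N) ((p : ℤ) ^ k)) → Qbar),
      IsHopfOrderZl p
        (fun (σ : GQ) (t : ↥(Submodule.torsionBy ℤ (JZero N) ((p : ℤ) ^ k))) =>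
          torsAct (J := JZero N) ((p : ℤ) ^ k) σ t) H₀ := by
  obtain ⟨H, hH⟩ := h
  exact ⟨H, Fermat.Agent.S32.BridgeFn.isHopfOrderZl_of_fn hH⟩

/-- **the same from `W A`-orders at `X₀(N)` for all `(A, σ)`** -/
theorem hord_of_forall_wOrder [Fact p.Prime]
    (h : ∀ (A : ValuationSubring Qbar) (_ : A.LiesOverPrime p) (σ : GQ) (_ : A.IsFrobeniusAt σ p),
      ∃ HW : Subalgebra ↥(W A) (↥(T N ((p : ℤ) ^ k)) → Qbar),
        WOrder (fun τ => ⇑(galAct (N := N) (m := (p : ℤ) ^ k) τ)) σ (A.inertiaSubgroupIn ℚ) HW) :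
    ∃ H₀ : Subalgebra (ratLocalizedAt p)
        (↥(Submodule.torsionBy ℤ (JZero N) ((p : ℤ) ^ k)) → Qbar),
      IsHopfOrderZl p
        (fun (σ : GQ) (t : ↥(Submodule.torsionBy ℤ (JZero N) ((p : ℤ) ^ k))) =>
          torsAct (J := JZero N) ((p : ℤ) ^ k) σ t) H₀ :=
  hord_of_fn (Fermat.Agent.S19.Final.exists_isHopfOrderFn_of_forall_wOrder (p := N) (ℓ := p) (k := k) h)

end Fermat.Agent.S32.OrdX0
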