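import Mathlib
import Fermat.Prelude.Def_CuspForm_HeckeGaloisRepDatum

/-!
# S32 (W12): the residue field of the Hecke-Galois datum is finite
-/

set_option autoImplicit false

namespace Fermat.Agent.S32.ResidueFinite

open IsLocalRing

/-- A local ring whose residue field is hit by a local ring with finite residue field has finite
residue field. -/
theorem finite_residueField_of_surjective {O T : Type*} [CommRing O] [IsLocalRing O] [CommRing T]
    [IsLocalRing T] [Algebra O T] [IsLocalHom (algebraMap O T)] [Finite (ResidueField O)]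
    (h : Function.Surjective (residue T ∘ algebraMap O T)) : Finite (ResidueField T) := by
  refine Finite.of_surjective (ResidueField.map (algebraMap O T)) fun y => ?_
  obtain ⟨x, hx⟩ := h y
  exact ⟨residue O x, by rw [ResidueField.map_residue]; exact hx⟩

variable {N : ℕ} [NeZero N] {S : Set ℕ}
  {𝒪 : Type} [CommRing 𝒪] [IsDomain 𝒪] [IsDiscreteValuationRing 𝒪]
  [IsAdicComplete (IsLocalRing.maximalIdeal 𝒪) 𝒪]
  {θ : CuspForm.heckeAlgebra N 2 S →+* IsLocalRing.ResidueField 𝒪}
  {T : Type} [CommRing T] [IsLocalRing T] [IsNoetherianRing T]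
  [IsAdicComplete (IsLocalRing.maximalIdeal T) T] [Algebra 𝒪 T] [IsLocalHom (algebraMap 𝒪 T)]
  [Module.Finite 𝒪 T] [Module.Free 𝒪 T]

/-- The residue field of `T` in a Hecke-Galois datum is finite when that of `𝒪` is. -/
theorem finite_residueField [Finite (ResidueField 𝒪)]
    (H : CuspForm.HeckeGaloisRepDatum N S 𝒪 θ T) : Finite (ResidueField T) :=
  finite_residueField_of_surjective H.residue_surjective

end Fermat.Agent.S32.ResidueFinite
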