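import Fermat.Agent.S19.TorsionX0
import Fermat.Agent.S19.CloseX0
import Fermat.Agent.S19.ApiX0
import Fermat.Agent.S32.OrdX0
import Fermat.Agent.S32.Level
import Fermat.Agent.S32.FlatOfTransfer
import Fermat.Agent.S32.ResidueFinite

/-!
# PROJECT F (S32), final assembly: the frozen conclusion from Hopf orders on `J₀(N)[pᵏ]`

`isFlatAt_of_hord` : in the frame of the frozen statement S32, if every `J₀(N)[pᵏ]` carries a
function-level Hopf order over `ℤ_(p)` (the function-level export of S19 at level `N`, `p ∤ N`),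
then `H.ρ` is flat at `p`.

Proof: `FlatOfTransfer.isFlatAt_of_transfer_pow` (closure of Hopf orders under subquotients of
finite powers + packaging) applied to `J := JZero N`, with the transfer statement
`Level.exists_level` and `ResidueFinite.finite_residueField`.

`isFlatAt_of_chartAPI` : the same with the Hopf orders supplied by the S19 chain from chart
interfaces at `X₀(N)` (`S19/CloseX0.exists_isHopfOrderFn_of_chartAPI` + `S32/OrdX0.hord_of_fn`).

`isFlatAt` : the conclusion of the frozen statement S32 from its hypotheses, the chart interfaces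
being `S19/ApiX0.exists_chartAPIAt` at level `N` and the prime `p ∤ N`.
-/

set_option autoImplicit false
set_option linter.unusedSectionVars false
set_option linter.style.haveILetI false

namespace Fermat.Agent.S32.Final

open IsLocalRing ModularCurve
open Fermat.Agent.S32.HopfClosureZl Fermat.Agent.S32.LevelActs

variable {p : ℕ} {N : ℕ} [NeZero N] {S : Finset ℕ}
  {𝒪 : Type} [CommRing 𝒪] [IsDomain 𝒪] [IsDiscreteValuationRing 𝒪]
  [IsAdicComplete (IsLocalRing.maximalIdeal 𝒪) 𝒪]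
  {θ : CuspForm.heckeAlgebra N 2 (↑S : Set ℕ) →+* IsLocalRing.ResidueField 𝒪}
  {T : Type} [CommRing T] [IsLocalRing T] [IsNoetherianRing T]
  [IsAdicComplete (IsLocalRing.maximalIdeal T) T] [Algebra 𝒪 T] [IsLocalHom (algebraMap 𝒪 T)]
  [Module.Finite 𝒪 T] [Module.Free 𝒪 T]

/-- **S32 from S19 (function level).** In the frame of the frozen statement S32: if every
`J₀(N)[pᵏ]` carries a function-level Hopf order over `ℤ_(p)`, then `H.ρ` is flat at `p`. -/
theorem isFlatAt_of_hord [Finite (IsLocalRing.ResidueField 𝒪)]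
    (hp : p.Prime) (hp2 : p ≠ 2) (hp𝒪 : (p : 𝒪) ∈ IsLocalRing.maximalIdeal 𝒪)
    (hpS : p ∈ S) (hNS : ∀ q : ℕ, q.Prime → q ∣ N → q ∈ S)
    (H : CuspForm.HeckeGaloisRepDatum N (↑S : Set ℕ) 𝒪 θ T)
    (hord : ∀ k : ℕ, ∃ H₀ : Subalgebra (GaloisRep.ratLocalizedAt p)
        (Submodule.torsionBy ℤ (JZero N) ((p : ℤ) ^ k) → AlgebraicClosure ℚ),
      IsHopfOrderZl p (fun σ t => torsAct (G := AlgebraicClosure ℚ ≃ₐ[ℚ] AlgebraicClosure ℚ)
        (J := JZero N) ((p : ℤ) ^ k) σ t) H₀) :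
    H.ρ.IsFlatAt p := by
  haveI : Fact p.Prime := ⟨hp⟩
  have hfinJ : ∀ k : ℕ, Finite (Submodule.torsionBy ℤ (JZero N) ((p : ℤ) ^ k)) := fun k =>
    Fermat.Agent.S19.TorsionX0.finite_T (N := N) (m := (p : ℤ) ^ k)
      (pow_ne_zero k (Int.natCast_ne_zero.mpr hp.ne_zero))
  exact Fermat.Agent.S32.FlatOfTransfer.isFlatAt_of_transfer_pow H.ρ p
    (Fermat.Agent.S32.ResidueFinite.finite_residueField H) (J := JZero N) hfinJ hord
    (fun n => @Fermat.Agent.S32.Level.exists_level p _ N _ S 𝒪 _ _ _ _ θ T _ _ _ _ _ _ _ _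
      hp2 hp𝒪 hpS hNS H n)

open Fermat.Agent.S19.TorsionX0 Fermat.Agent.S18.C.SmallDVR in
/-- **S32 from the chart interfaces of the S19 chain at `X₀(N)`.** -/
theorem isFlatAt_of_chartAPI [Finite (IsLocalRing.ResidueField 𝒪)]
    (hp : p.Prime) (hp2 : p ≠ 2) (hp𝒪 : (p : 𝒪) ∈ IsLocalRing.maximalIdeal 𝒪)
    (hpS : p ∈ S) (hNS : ∀ q : ℕ, q.Prime → q ∣ N → q ∈ S)
    (H : CuspForm.HeckeGaloisRepDatum N (↑S : Set ℕ) 𝒪 θ T)
    (h : haveI : Fact p.Prime := ⟨hp⟩
      ∀ (k : ℕ) (A : ValuationSubring (AlgebraicClosure ℚ)) (hA : A.LiesOverPrime p),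
      ∃ (J : Type) (_ : AddCommGroup J) (Aalg : Subalgebra ↥(W A) (AlgebraicClosure ℚ))
        (small : AlgebraicClosure ℚ → Prop)
        (act : (AlgebraicClosure ℚ ≃ₐ[ℚ] AlgebraicClosure ℚ) → J → J) (J1 : AddSubgroup J)
        (ι : ↥(Fermat.Agent.S19.TorsionX0.T N ((p : ℤ) ^ k)) →+ J) (g : ℕ)
        (coord : J → Fin g → AlgebraicClosure ℚ)
        (Ψ : ℕ → Fin g → MvPolynomial (Fin g ⊕ Fin g) ↥(W A)),
        Fermat.Agent.S19.CloseX0.ChartAPIAt A hA N k Aalg small act J1 ι coord Ψ) :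
    H.ρ.IsFlatAt p := by
  haveI : Fact p.Prime := ⟨hp⟩
  exact isFlatAt_of_hord hp hp2 hp𝒪 hpS hNS H fun k =>
    Fermat.Agent.S32.OrdX0.hord_of_fn
      (Fermat.Agent.S19.CloseX0.exists_isHopfOrderFn_of_chartAPI (N := N) (ℓ := p) (k := k) (h k))

/-- **The frozen statement S32**: `H.ρ` is flat at `p`. -/
theorem isFlatAt [Finite (IsLocalRing.ResidueField 𝒪)]
    (hp : p.Prime) (hp2 : p ≠ 2) (hp𝒪 : (p : 𝒪) ∈ IsLocalRing.maximalIdeal 𝒪) (hpN : ¬ p ∣ N)
    (hpS : p ∈ S) (hNS : ∀ q : ℕ, q.Prime → q ∣ N → q ∈ S)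
    (H : CuspForm.HeckeGaloisRepDatum N (↑S : Set ℕ) 𝒪 θ T) :
    H.ρ.IsFlatAt p := by
  haveI : Fact p.Prime := ⟨hp⟩
  exact isFlatAt_of_chartAPI hp hp2 hp𝒪 hpS hNS H fun k A hA =>
    Fermat.Agent.S19.ApiX0.exists_chartAPIAt (N := N) hpN k A hA

end Fermat.Agent.S32.Final
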