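import Fermat.Agent.S32.HopfClosure
import Fermat.Agent.S28.ZlBase
import Fermat.Agent.S51.StableLine

/-!
# S32 (W12), slice (S32-3): closure of Hopf orders over `ℤ_(ℓ)`, concrete frame

Specialisation of `Fermat.Agent.S32.HopfClosure` to the frame of the frozen statements S19 / S32:
`R = GaloisRep.ratLocalizedAt ℓ`, `F = ℚ`, `K = AlgebraicClosure ℚ`, `Γ = K ≃ₐ[ℚ] K`.
-/

set_option autoImplicit false

namespace Fermat.Agent.S32.HopfClosureZl

open GaloisRep Fermat.Agent.S32.HopfClosure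

/-- The Galois action on `AlgebraicClosure ℚ` as a family of ring endomorphisms. -/
noncomputable def kappa : (AlgebraicClosure ℚ ≃ₐ[ℚ] AlgebraicClosure ℚ) →
    AlgebraicClosure ℚ →+* AlgebraicClosure ℚ :=
  fun σ => (σ : AlgebraicClosure ℚ →+* AlgebraicClosure ℚ)

@[simp] theorem kappa_apply (σ : AlgebraicClosure ℚ ≃ₐ[ℚ] AlgebraicClosure ℚ)
    (x : AlgebraicClosure ℚ) : kappa σ x = σ x := rfl

/-- The fixed field of the absolute Galois group is `ℚ`. -/
theorem kappa_fix (x : AlgebraicClosure ℚ) (h : ∀ σ, kappa σ x = x) :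
    x ∈ Set.range (algebraMap ℚ (AlgebraicClosure ℚ)) :=
  Fermat.Agent.S51.StableLine.exists_rat_of_fixed x h

variable (ℓ : ℕ)

theorem kappa_algebraMap (σ : AlgebraicClosure ℚ ≃ₐ[ℚ] AlgebraicClosure ℚ)
    (r : ratLocalizedAt ℓ) :
    kappa σ (algebraMap (ratLocalizedAt ℓ) (AlgebraicClosure ℚ) r) =
      algebraMap (ratLocalizedAt ℓ) (AlgebraicClosure ℚ) r := by
  rw [IsScalarTower.algebraMap_apply (ratLocalizedAt ℓ) ℚ (AlgebraicClosure ℚ)]
  exact σ.commutes _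

/-- Function-level Hopf orders over `ℤ_(ℓ)` for the absolute Galois group of `ℚ`. -/
abbrev IsHopfOrderZl {T : Type*} [AddCommGroup T]
    (act : (AlgebraicClosure ℚ ≃ₐ[ℚ] AlgebraicClosure ℚ) → T → T)
    (H : Subalgebra (ratLocalizedAt ℓ) (T → AlgebraicClosure ℚ)) : Prop :=
  IsHopfOrder kappa act H

variable {ℓ}

/-- Subgroups / transport along isomorphisms. -/
theorem IsHopfOrderZl.map_pullback {T T' : Type*} [AddCommGroup T] [AddCommGroup T']
    {act : (AlgebraicClosure ℚ ≃ₐ[ℚ] AlgebraicClosure ℚ) → T → T}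
    {act' : (AlgebraicClosure ℚ ≃ₐ[ℚ] AlgebraicClosure ℚ) → T' → T'}
    {H : Subalgebra (ratLocalizedAt ℓ) (T → AlgebraicClosure ℚ)}
    (hH : IsHopfOrderZl ℓ act H) (g : T' →+ T) (hg : Function.Injective g)
    (hgact : ∀ σ t', g (act' σ t') = act σ (g t')) :
    IsHopfOrderZl ℓ act' (H.map (pullback (ratLocalizedAt ℓ) g)) :=
  IsHopfOrder.map_pullback hH g hg hgact

/-- Finite powers. -/
theorem IsHopfOrderZl.pi {ι : Type*} [Finite ι] {T : Type*} [AddCommGroup T]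
    {act : (AlgebraicClosure ℚ ≃ₐ[ℚ] AlgebraicClosure ℚ) → T → T}
    {H : Subalgebra (ratLocalizedAt ℓ) (T → AlgebraicClosure ℚ)}
    (hH : IsHopfOrderZl ℓ act H) :
    IsHopfOrderZl ℓ (fun σ (x : ι → T) i => act σ (x i)) (piOrder ι H) :=
  IsHopfOrder.pi (kappa_algebraMap ℓ) hH

/-- Quotients. -/
theorem IsHopfOrderZl.comap_pullback [hℓ : Fact ℓ.Prime] {T T'' : Type*} [AddCommGroup T]
    [AddCommGroup T''] [Finite T]
    {act : (AlgebraicClosure ℚ ≃ₐ[ℚ] AlgebraicClosure ℚ) → T → T}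
    {act'' : (AlgebraicClosure ℚ ≃ₐ[ℚ] AlgebraicClosure ℚ) → T'' → T''}
    {H : Subalgebra (ratLocalizedAt ℓ) (T → AlgebraicClosure ℚ)}
    (hH : IsHopfOrderZl ℓ act H) (hact : ∀ σ, Function.Surjective (act σ))
    (hact''0 : ∀ σ, act'' σ 0 = 0)
    (q : T →+ T'') (hq : Function.Surjective q) (hqact : ∀ σ t, q (act σ t) = act'' σ (q t)) :
    IsHopfOrderZl ℓ act'' (H.comap (pullback (ratLocalizedAt ℓ) q)) :=
  IsHopfOrder.comap_pullback (F := ℚ) kappa_fix hH hact hact''0 q hq hqact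

end Fermat.Agent.S32.HopfClosureZl
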