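import Fermat.Agent.S32.HopfClosureZl
import Fermat.Agent.S32.Subquot

/-!
# S32 (W12): transfer of Hopf orders along annihilator containment

Combination of the subquotient lemma (`Fermat.Agent.S32.Subquot.exists_subquotient`, (S32-2)) with
the closure properties of function-level Hopf orders (`Fermat.Agent.S32.HopfClosure`, (S32-3)):

if `A`, `B` are finite abelian groups with additive actions `a`, `b` of a group `G`, if every
integral combination of group elements which kills `A` also kills `B`, and if `(A, a)` carries a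
Hopf order, then so does `(B, b)`.
-/

set_option autoImplicit false

namespace Fermat.Agent.S32.OrderTransfer

open Fermat.Agent.S32.HopfClosure Fermat.Agent.S32.Subquot

variable {R F K G : Type*} [CommRing R] [IsDomain R] [IsPrincipalIdealRing R]
  [Field F] [Field K] [Algebra R F] [IsFractionRing R F] [Algebra F K] [Algebra R K]
  [IsScalarTower R F K] [Group G] {κ : G → K →+* K}

/-- **Transfer of Hopf orders.** -/
theorem exists_isHopfOrder_of_transfer
    (hfix : ∀ x : K, (∀ σ, κ σ x = x) → x ∈ Set.range (algebraMap F K))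
    (hκ : ∀ σ (r : R), κ σ (algebraMap R K r) = algebraMap R K r)
    {A B : Type*} [AddCommGroup A] [AddCommGroup B] [Finite A] [Finite B]
    {a : G →* AddMonoid.End A} {b : G →* AddMonoid.End B}
    (hTR : ∀ x : G →₀ ℤ, act a x = 0 → act b x = 0)
    {H : Subalgebra R (A → K)} (hH : IsHopfOrder κ (fun σ t => a σ t) H) :
    ∃ H' : Subalgebra R (B → K), IsHopfOrder κ (fun σ t => b σ t) H' := by
  classical
  cases nonempty_fintype B
  obtain ⟨S, hS, q, hq, hqb⟩ := exists_subquotient (a := a) (b := b) hTR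
  -- the power order
  have h1 := IsHopfOrder.pi (ι := B × A) hκ hH
  -- the action on the stable subgroup
  set actS : G → S → S := fun σ F => ⟨fun p => a σ (F.1 p), hS σ F.1 F.2⟩ with hactS
  have h2 := IsHopfOrder.map_pullback (act' := actS) h1 S.subtype Subtype.val_injective
    (fun σ F => rfl)
  have hsurj : ∀ σ, Function.Surjective (actS σ) := by
    intro σ F
    refine ⟨actS σ⁻¹ F, Subtype.ext (funext fun p => ?_)⟩
    change (a σ * a σ⁻¹) (F.1 p) = F.1 p
    rw [← map_mul, mul_inv_cancel, map_one]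
    rfl
  exact ⟨_, IsHopfOrder.comap_pullback hfix h2 hsurj (fun σ => map_zero (b σ)) q hq
    (fun σ F => hqb σ F (hS σ F.1 F.2))⟩

open GaloisRep Fermat.Agent.S32.HopfClosureZl in
/-- **Transfer of Hopf orders**, frame of the frozen statements S19 / S32. -/
theorem exists_isHopfOrderZl_of_transfer {ℓ : ℕ} [Fact ℓ.Prime]
    {A B : Type*} [AddCommGroup A] [AddCommGroup B] [Finite A] [Finite B]
    {a : (AlgebraicClosure ℚ ≃ₐ[ℚ] AlgebraicClosure ℚ) →* AddMonoid.End A}
    {b : (AlgebraicClosure ℚ ≃ₐ[ℚ] AlgebraicClosure ℚ) →* AddMonoid.End B}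
    (hTR : ∀ x : (AlgebraicClosure ℚ ≃ₐ[ℚ] AlgebraicClosure ℚ) →₀ ℤ, act a x = 0 → act b x = 0)
    {H : Subalgebra (ratLocalizedAt ℓ) (A → AlgebraicClosure ℚ)}
    (hH : IsHopfOrderZl ℓ (fun σ t => a σ t) H) :
    ∃ H' : Subalgebra (ratLocalizedAt ℓ) (B → AlgebraicClosure ℚ),
      IsHopfOrderZl ℓ (fun σ t => b σ t) H' :=
  exists_isHopfOrder_of_transfer (F := ℚ) kappa_fix (kappa_algebraMap ℓ) hTR hH

end Fermat.Agent.S32.OrderTransfer
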